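import Fermat.Agent.Lib.Ihara.L.Prod
import Fermat.Agent.Lib.S53.PowerSeriesP

/-!
# IHARA / L, part 12: points of `IhlR` from matrices

* `ihl_exists_eval` : a family of pairs of matrices `(Σ_q, Φ_q)` congruent to `1` modulo the maximal
  ideal of a complete local `𝒪`-algebra `B`, and elements `x_γ ∈ 𝔪_B`, define an `𝒪`-algebra map
  `π : IhlR 𝒪 T G → B` with `π(ihlSigma q) = Σ_q`, `π(ihlPhi q) = Φ_q`, `π(x_γ) = x_γ`;
* `ihl_JProd_le_ker`, `ihl_J_le_ker_of_matrices` : the criteria for killing `ihlJProd` / `ihlJ`;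
* `ihl_map_T` : `π (ihlT nn q₀) = tr Φ_{q₀} - (1 + nn q₀)`.
-/

set_option autoImplicit false

open MvPowerSeries IsLocalRing

namespace Fermat.Agent.Ihara

universe u

section eval

variable {𝒪 : Type u} [CommRing 𝒪] {T G : Type} [Finite T] [Finite G]
  {B : Type*} [CommRing B] [Algebra 𝒪 B] [IsLocalRing B] [IsAdicComplete (maximalIdeal B) B]

/-- the values of the point defined by matrices -/
noncomputable def ihlEvalVal (Sg Ph : T → Matrix (Fin 2) (Fin 2) B) (xs : G → B) : IhlIdx T G → B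
  | Sum.inl (q, false, i, j) => (Sg q - 1) i j
  | Sum.inl (q, true, i, j) => (Ph q - 1) i j
  | Sum.inr γ => xs γ

/-- **the point of `IhlR` defined by matrices `≡ 1` and elements of the maximal ideal** -/
theorem ihl_exists_eval (Sg Ph : T → Matrix (Fin 2) (Fin 2) B)
    (hSg : ∀ q i j, (Sg q - 1) i j ∈ maximalIdeal B) (hPh : ∀ q i j, (Ph q - 1) i j ∈ maximalIdeal B)
    (xs : G → B) (hxs : ∀ γ, xs γ ∈ maximalIdeal B) :
    ∃ π : IhlR 𝒪 T G →ₐ[𝒪] B,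
      (∀ q, (ihlSigma q : Matrix (Fin 2) (Fin 2) (IhlR 𝒪 T G)).map π = Sg q) ∧
      (∀ q, (ihlPhi q : Matrix (Fin 2) (Fin 2) (IhlR 𝒪 T G)).map π = Ph q) ∧
      ∀ γ, π (X (Sum.inr γ)) = xs γ := by
  have hmem : ∀ x, ihlEvalVal Sg Ph xs x ∈ maximalIdeal B := by
    rintro (⟨q, b, i, j⟩ | γ)
    · cases b
      · exact hSg q i j
      · exact hPh q i j
    · exact hxs γ
  let π : IhlR 𝒪 T G →ₐ[𝒪] B :=
    Fermat.Agent.S53Lib.evalAdic (maximalIdeal B) (ihlEvalVal Sg Ph xs) hmem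
  have hπ : ∀ x, π (X x) = ihlEvalVal Sg Ph xs x := fun x =>
    Fermat.Agent.S53Lib.evalAdic_X _ _ _ _
  refine ⟨π, fun q => ?_, fun q => ?_, fun γ => hπ _⟩
  · ext i j
    rw [Matrix.map_apply, ihlSigma, ihlMat_apply, map_add, ihlX, hπ]
    show π (if i = j then 1 else 0) + (Sg q - 1) i j = Sg q i j
    rw [Matrix.sub_apply, Matrix.one_apply]
    split_ifs <;> simp
  · ext i j
    rw [Matrix.map_apply, ihlPhi, ihlMat_apply, map_add, ihlX, hπ]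
    show π (if i = j then 1 else 0) + (Ph q - 1) i j = Ph q i j
    rw [Matrix.sub_apply, Matrix.one_apply]
    split_ifs <;> simp

end eval

section kill

variable {𝒪 : Type*} [CommRing 𝒪] {T G : Type*} {B : Type*} [CommRing B]
  (π : IhlR 𝒪 T G →+* B) (Sg Ph : T → Matrix (Fin 2) (Fin 2) B)
  (h1 : ∀ q, (ihlSigma q : Matrix (Fin 2) (Fin 2) (IhlR 𝒪 T G)).map π = Sg q)
  (h2 : ∀ q, (ihlPhi q : Matrix (Fin 2) (Fin 2) (IhlR 𝒪 T G)).map π = Ph q)

include h1 in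
theorem ihl_map_trace_sigma (q : T) :
    π ((ihlSigma q : Matrix (Fin 2) (Fin 2) (IhlR 𝒪 T G)).trace) = (Sg q).trace := by
  rw [← h1 q, Matrix.trace_fin_two, Matrix.trace_fin_two, map_add]
  rfl

include h1 in
theorem ihl_map_det_sigma (q : T) :
    π ((ihlSigma q : Matrix (Fin 2) (Fin 2) (IhlR 𝒪 T G)).det) = (Sg q).det := by
  rw [← h1 q, RingHom.map_det]
  rfl

include h2 in
theorem ihl_map_det_phi (q : T) :
    π ((ihlPhi q : Matrix (Fin 2) (Fin 2) (IhlR 𝒪 T G)).det) = (Ph q).det := by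
  rw [← h2 q, RingHom.map_det]
  rfl

include h2 in
/-- the image of `t = tr Φ_{q₀} - (1 + nn q₀)` -/
theorem ihl_map_T (nn : T → 𝒪) (q₀ : T) :
    π (ihlT nn q₀) = (Ph q₀).trace - π (C (1 + nn q₀)) := by
  rw [ihlT, map_sub, ← h2 q₀, Matrix.trace_fin_two, Matrix.trace_fin_two, map_add]
  rfl

include h1 h2 in
theorem ihl_map_comm_entry (q : T) (i j : Fin 2) :
    π ((ihlPhi q * ihlSigma q - ihlSigma q * ihlPhi q :
      Matrix (Fin 2) (Fin 2) (IhlR 𝒪 T G)) i j) = (Ph q * Sg q - Sg q * Ph q) i j := by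
  have : π.mapMatrix (ihlPhi q * ihlSigma q - ihlSigma q * ihlPhi q :
      Matrix (Fin 2) (Fin 2) (IhlR 𝒪 T G)) = Ph q * Sg q - Sg q * Ph q := by
    rw [map_sub, map_mul, map_mul]
    show (ihlPhi q : Matrix (Fin 2) (Fin 2) (IhlR 𝒪 T G)).map π *
      (ihlSigma q : Matrix (Fin 2) (Fin 2) (IhlR 𝒪 T G)).map π -
      (ihlSigma q : Matrix (Fin 2) (Fin 2) (IhlR 𝒪 T G)).map π *
      (ihlPhi q : Matrix (Fin 2) (Fin 2) (IhlR 𝒪 T G)).map π = _
    rw [h1, h2]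
  rw [← this]
  rfl

include h1 h2 in
/-- the criterion for killing the product form `ihlJProd μ nn` -/
theorem ihl_JProd_le_ker (μ : T → Finset 𝒪ˣ) (nn : T → 𝒪)
    (hprod : ∀ q, ∏ ζ ∈ μ q, ((Sg q).trace - π (C ((ζ : 𝒪) + ((ζ⁻¹ : 𝒪ˣ) : 𝒪)))) = 0)
    (hdet : ∀ q, (Sg q).det = 1) (hdetPhi : ∀ q, (Ph q).det = π (C (nn q)))
    (hcomm : ∀ q, Ph q * Sg q = Sg q * Ph q) :
    ihlJProd μ nn ≤ RingHom.ker π := by
  rw [ihlJProd, Ideal.span_le]
  rintro x (((⟨q, rfl⟩ | ⟨q, rfl⟩) | ⟨q, rfl⟩) | ⟨⟨q, i, j⟩, rfl⟩)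
  · show π _ = 0
    rw [map_prod, ← hprod q]
    refine Finset.prod_congr rfl fun ζ _ => ?_
    rw [map_sub, ihl_map_trace_sigma π Sg h1]
  · show π _ = 0
    rw [map_sub, ihl_map_det_sigma π Sg h1, hdet, map_one, sub_self]
  · show π _ = 0
    rw [map_sub, ihl_map_det_phi π Ph h2, hdetPhi, sub_self]
  · show π _ = 0
    rw [ihl_map_comm_entry π Sg Ph h1 h2, hcomm, sub_self]
    rfl

include h1 h2 in
/-- the criterion for killing `ihlJ τ nn` -/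
theorem ihl_J_le_ker_of_matrices (τ nn : T → 𝒪)
    (htr : ∀ q, (Sg q).trace = π (C (τ q)))
    (hdet : ∀ q, (Sg q).det = 1) (hdetPhi : ∀ q, (Ph q).det = π (C (nn q)))
    (hcomm : ∀ q, Ph q * Sg q = Sg q * Ph q) :
    ihlJ τ nn ≤ RingHom.ker π := by
  rw [ihlJ, Ideal.span_le]
  rintro x (((⟨q, rfl⟩ | ⟨q, rfl⟩) | ⟨q, rfl⟩) | ⟨⟨q, i, j⟩, rfl⟩)
  · show π _ = 0
    rw [map_sub, ihl_map_trace_sigma π Sg h1, htr, sub_self]
  · show π _ = 0
    rw [map_sub, ihl_map_det_sigma π Sg h1, hdet, map_one, sub_self]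
  · show π _ = 0
    rw [map_sub, ihl_map_det_phi π Ph h2, hdetPhi, sub_self]
  · show π _ = 0
    rw [ihl_map_comm_entry π Sg Ph h1 h2, hcomm, sub_self]
    rfl

end kill

end Fermat.Agent.Ihara
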