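import Mathlib

/-!
# IHARA / L (helper6), part 0: the interface

The type-free framed local ring at a finite family `T` of C-primes is the FREE power series ring
`IhlR 𝒪 T G = 𝒪[[X_{q,b,i,j}, x_γ]]` (`q : T`, `b : Bool`, `i j : Fin 2`, `γ : G`), where
`X_{q,false,i,j}` is the `(i,j)` entry of `Σ_q - 1` (`Σ_q` = image of a generator of tame inertia
at `q`) and `X_{q,true,i,j}` is the `(i,j)` entry of `Φ_q - 1` (`Φ_q` = `c_q⁻¹ ·` image of a
Frobenius lift at `q`, `c_q = ±1` the scalar by which it acts residually), and the `x_γ` are the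
extra (global) variables.

* `ihlSigma q`, `ihlPhi q : Matrix (Fin 2) (Fin 2) (IhlR 𝒪 T G)` : the universal matrices;
* `ihlJ τ nn` : the type-`χ` ideal, generated by `tr Σ_q - τ_q`, `det Σ_q - 1`,
  `det Φ_q - nn_q` and the entries of `Φ_q Σ_q - Σ_q Φ_q` (`τ_q = ζ_q + ζ_q⁻¹`, `nn_q = q`);
* `ihlT nn q₀ = tr Φ_{q₀} - (1 + nn_{q₀})`.
-/

set_option autoImplicit false

open MvPowerSeries

namespace Fermat.Agent.Ihara

/-- the index type of the variables -/
abbrev IhlIdx (T G : Type*) := (T × Bool × Fin 2 × Fin 2) ⊕ G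

/-- the type-free framed ring with extra variables -/
abbrev IhlR (𝒪 : Type*) [CommRing 𝒪] (T G : Type*) := MvPowerSeries (IhlIdx T G) 𝒪

section

variable {𝒪 : Type*} [CommRing 𝒪] {T G : Type*}

/-- the universal matrix `1 + (X_{q,b,i,j})_{i,j}` -/
noncomputable def ihlMat (q : T) (b : Bool) : Matrix (Fin 2) (Fin 2) (IhlR 𝒪 T G) :=
  1 + Matrix.of fun i j => (X (Sum.inl (q, b, i, j)) : IhlR 𝒪 T G)

/-- the universal image of the generator of tame inertia at `q` -/
noncomputable def ihlSigma (q : T) : Matrix (Fin 2) (Fin 2) (IhlR 𝒪 T G) := ihlMat q false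

/-- the universal image of the (sign-normalised) Frobenius lift at `q` -/
noncomputable def ihlPhi (q : T) : Matrix (Fin 2) (Fin 2) (IhlR 𝒪 T G) := ihlMat q true

/-- the generators of the type-`χ` ideal -/
noncomputable def ihlJGen (τ nn : T → 𝒪) : Set (IhlR 𝒪 T G) :=
  (Set.range fun q : T => (ihlSigma q).trace - C (τ q)) ∪
  (Set.range fun q : T => (ihlSigma q).det - 1) ∪
  (Set.range fun q : T => (ihlPhi q).det - C (nn q)) ∪
  (Set.range fun x : T × Fin 2 × Fin 2 =>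
    ((ihlPhi x.1 * ihlSigma x.1 - ihlSigma x.1 * ihlPhi x.1 :
      Matrix (Fin 2) (Fin 2) (IhlR 𝒪 T G)) x.2.1 x.2.2))

/-- the type-`χ` ideal: `charpoly Σ_q = X² - τ_q X + 1`, `Φ_q Σ_q = Σ_q Φ_q`, `det Φ_q = nn_q` -/
noncomputable def ihlJ (τ nn : T → 𝒪) : Ideal (IhlR 𝒪 T G) := Ideal.span (ihlJGen τ nn)

/-- `t = tr Φ_{q₀} - (1 + q₀)` -/
noncomputable def ihlT (nn : T → 𝒪) (q₀ : T) : IhlR 𝒪 T G :=
  (ihlPhi q₀).trace - C (1 + nn q₀)

end

end Fermat.Agent.Ihara
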