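import Fermat.Agent.Lib.Ihara.L.Rel
import Fermat.Agent.Lib.S53.PowerSeriesP

/-!
# IHARA / L, part 6: the dimension bound

`ihl_dim_le` : `dim (IhlR 𝒪 T G ⧸ I) ≤ 1 + 3|T| + |G|` for every proper ideal `I ⊇ ihlJ τ nn`
(`τ ≡ 2`, `nn ≡ 1`, `2` invertible): modulo `ϖ`, the `x_γ` and `e_q - h_q`, `f_q - c_q`,
`g_q - b_q` every variable becomes nilpotent.
`ihl_prime_eq` : primes `𝔭 ≤ 𝔔` with `dim R/𝔭 ≤ N ≤ dim R/𝔔` are equal.
-/

set_option autoImplicit false

open MvPowerSeries IsLocalRing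

namespace Fermat.Agent.Ihara

/-- primes `𝔭 ≤ 𝔔` with `dim R/𝔭 ≤ N ≤ dim R/𝔔` (`N` finite) are equal -/
theorem ihl_prime_eq {R : Type*} [CommRing R] {𝔭 𝔔 : Ideal R} [h𝔭 : 𝔭.IsPrime] (hle : 𝔭 ≤ 𝔔)
    (N : ℕ) (h1 : ringKrullDim (R ⧸ 𝔭) ≤ N) (h2 : (N : WithBot ℕ∞) ≤ ringKrullDim (R ⧸ 𝔔)) :
    𝔭 = 𝔔 := by
  by_contra hne
  obtain ⟨r, hr𝔔, hr𝔭⟩ := SetLike.exists_of_lt (lt_of_le_of_ne hle hne)
  have hr0 : (Ideal.Quotient.mk 𝔭 r) ≠ 0 := by
    rwa [Ne, Ideal.Quotient.eq_zero_iff_mem]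
  have h3 := ringKrullDim_succ_le_of_surjective (Ideal.Quotient.factor hle)
    (Ideal.Quotient.factor_surjective hle) (mem_nonZeroDivisors_of_ne_zero hr0)
    (by rw [Ideal.Quotient.factor_mk, Ideal.Quotient.eq_zero_iff_mem]; exact hr𝔔)
  have h4 : ((N : WithBot ℕ∞)) + 1 ≤ N := (add_le_add_left h2 1).trans (h3.trans h1)
  have h5 : ((N + 1 : ℕ) : WithBot ℕ∞) ≤ (N : ℕ) := by exact_mod_cast h4
  have h6 : N + 1 ≤ N := by exact_mod_cast h5
  omega

universe u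

section nil

variable {A : Type*} [CommRing A] {a b c d e f g h : A}

/-- the nilpotency certificates: `τ = 2`, `nn = 1`, `e = h`, `f = c`, `g = b` -/
theorem IhlRel.nil (H : IhlRel (2 : A) 1 a b c d e f g h) (h2 : IsUnit (2 : A))
    (hu : IsUnit (2 + e)) (heh : e = h) (hfc : f = c) (hgb : g = b) :
    a ^ 3 = 0 ∧ b ^ 3 = 0 ∧ c ^ 3 = 0 ∧ d ^ 3 = 0 ∧ e ^ 3 = 0 ∧ f ^ 3 = 0 ∧ g ^ 3 = 0 ∧
      h ^ 3 = 0 := by
  subst heh hfc hgb
  have hd : d = -a := by linear_combination H.tr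
  subst hd
  have r1 : a ^ 2 + g * f = 0 := by linear_combination -H.det
  have r2 : f ^ 2 = g ^ 2 := by linear_combination H.c00
  have r3 : a * f = 0 := by
    have : 2 * (2 * (a * f)) = 0 := by linear_combination -2 * H.c01
    have h4 := h2.mul_left_cancel (this.trans (mul_zero 2).symm)
    exact h2.mul_left_cancel (h4.trans (mul_zero 2).symm)
  have r4 : a * g = 0 := by
    have : 2 * (2 * (a * g)) = 0 := by linear_combination 2 * H.c10
    have h4 := h2.mul_left_cancel (this.trans (mul_zero 2).symm)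
    exact h2.mul_left_cancel (h4.trans (mul_zero 2).symm)
  have r5 : e * (2 + e) = g * f := by linear_combination H.detPhi
  have ha : a ^ 3 = 0 := by linear_combination a * r1 - f * r4
  have hg : g ^ 3 = 0 := by linear_combination (-g) * r2 + f * r1 - a * r3
  have hf : f ^ 3 = 0 := by linear_combination f * r2 + g * r1 - a * r4
  have he : e ^ 2 = 0 := by
    have h6 : (2 + e) ^ 2 * e ^ 2 = 0 := by
      linear_combination (e * (2 + e) + g * f) * r5 + (g * f - a ^ 2) * r1 + a * ha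
    exact (hu.pow 2).mul_left_cancel (h6.trans (mul_zero _).symm)
  refine ⟨ha, hg, hf, ?_, ?_, hf, hg, ?_⟩
  · linear_combination -ha
  · linear_combination e * he
  · linear_combination e * he

end nil

section dim

variable {𝒪 : Type u} [CommRing 𝒪] [IsLocalRing 𝒪] {T G : Type} [Finite T] [Finite G]

/-- the parameters: `ϖ`, `x_γ`, `e_q - h_q`, `f_q - c_q`, `g_q - b_q` -/
noncomputable def ihlParams (ϖ : 𝒪) : Set (IhlR 𝒪 T G) :=
  {C ϖ} ∪ (Set.range fun γ : G => (X (Sum.inr γ) : IhlR 𝒪 T G)) ∪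
    (Set.range fun q : T => (ihlX q true 0 0 - ihlX q true 1 1 : IhlR 𝒪 T G)) ∪
    (Set.range fun q : T => (ihlX q true 0 1 - ihlX q false 1 0 : IhlR 𝒪 T G)) ∪
    (Set.range fun q : T => (ihlX q true 1 0 - ihlX q false 0 1 : IhlR 𝒪 T G))

omit [IsLocalRing 𝒪] in
theorem ihlParams_encard_le (ϖ : 𝒪) :
    (ihlParams (T := T) (G := G) ϖ).encard ≤ (1 + 3 * Nat.card T + Nat.card G : ℕ) := by
  have hr : ∀ {α : Type} [Finite α] (F : α → IhlR 𝒪 T G), (Set.range F).encard ≤ Nat.card α := by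
    intro α _ F
    rw [← Set.image_univ]
    refine (Set.encard_image_le _ _).trans ?_
    rw [Set.encard_univ, ENat.card_eq_coe_natCard]
  unfold ihlParams
  set s1 : Set (IhlR 𝒪 T G) := {C ϖ} with hs1
  set s2 : Set (IhlR 𝒪 T G) := Set.range fun γ : G => (X (Sum.inr γ) : IhlR 𝒪 T G) with hs2
  set s3 : Set (IhlR 𝒪 T G) :=
    Set.range fun q : T => (ihlX q true 0 0 - ihlX q true 1 1 : IhlR 𝒪 T G) with hs3
  set s4 : Set (IhlR 𝒪 T G) :=
    Set.range fun q : T => (ihlX q true 0 1 - ihlX q false 1 0 : IhlR 𝒪 T G) with hs4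
  set s5 : Set (IhlR 𝒪 T G) :=
    Set.range fun q : T => (ihlX q true 1 0 - ihlX q false 0 1 : IhlR 𝒪 T G) with hs5
  have e1 : s1.encard = 1 := Set.encard_singleton _
  have e2 : s2.encard ≤ Nat.card G := hr _
  have e3 : s3.encard ≤ Nat.card T := hr _
  have e4 : s4.encard ≤ Nat.card T := hr _
  have e5 : s5.encard ≤ Nat.card T := hr _
  have u1 : (s1 ∪ s2).encard ≤ 1 + Nat.card G :=
    (Set.encard_union_le _ _).trans (by rw [e1]; exact add_le_add le_rfl e2)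
  have u2 : (s1 ∪ s2 ∪ s3).encard ≤ 1 + Nat.card G + Nat.card T :=
    (Set.encard_union_le _ _).trans (add_le_add u1 e3)
  have u3 : (s1 ∪ s2 ∪ s3 ∪ s4).encard ≤ 1 + Nat.card G + Nat.card T + Nat.card T :=
    (Set.encard_union_le _ _).trans (add_le_add u2 e4)
  have u4 : (s1 ∪ s2 ∪ s3 ∪ s4 ∪ s5).encard ≤
      1 + Nat.card G + Nat.card T + Nat.card T + Nat.card T :=
    (Set.encard_union_le _ _).trans (add_le_add u3 e5)
  refine u4.trans (le_of_eq ?_)
  push_cast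
  ring

variable (ϖ : 𝒪) (hm : maximalIdeal 𝒪 = Ideal.span {ϖ}) (h2 : IsUnit (2 : 𝒪))
  (τ nn : T → 𝒪) (hτ : ∀ q, τ q - 2 ∈ maximalIdeal 𝒪) (hnn : ∀ q, nn q - 1 ∈ maximalIdeal 𝒪)

omit [Finite T] [Finite G] in
include hm h2 hτ hnn in
/-- modulo `ihlJ` and the parameters every variable is nilpotent -/
theorem ihl_X_pow_mem {Q : Type*} [CommRing Q] (ψ : IhlR 𝒪 T G →+* Q)
    (hJ : ihlJ τ nn ≤ RingHom.ker ψ) (hs : ∀ x ∈ ihlParams (T := T) (G := G) ϖ, ψ x = 0)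
    (x : IhlIdx T G) : ψ (X x) ^ 3 = 0 := by
  have hϖ : ψ (C ϖ) = 0 := hs _ (Or.inl (Or.inl (Or.inl (Or.inl rfl))))
  have hC : ∀ z : 𝒪, z ∈ maximalIdeal 𝒪 → ψ (C z) = 0 := by
    intro z hz
    rw [hm, Ideal.mem_span_singleton] at hz
    obtain ⟨y, rfl⟩ := hz
    rw [map_mul, map_mul, hϖ, zero_mul]
  rcases x with ⟨q, b, i, j⟩ | γ
  · have H := (ihl_J_le_ker_iff ψ τ nn).mp hJ q
    have e1 : ψ (C (τ q)) = 2 := by
      have := hC _ (hτ q)
      rw [map_sub, map_sub, map_ofNat, map_ofNat] at this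
      linear_combination this
    have e2 : ψ (C (nn q)) = 1 := by
      have := hC _ (hnn q)
      rw [map_sub, map_sub, map_one, map_one] at this
      linear_combination this
    rw [e1, e2] at H
    have u2 : IsUnit (2 : Q) := by
      have := (h2.map (C (σ := IhlIdx T G) (R := 𝒪))).map ψ
      rwa [map_ofNat, map_ofNat] at this
    have ue : IsUnit (2 + ψ (ihlX q true 0 0)) := by
      have h3 : IsUnit (2 + ihlX q true 0 0 : IhlR 𝒪 T G) := by
        rw [MvPowerSeries.isUnit_iff_constantCoeff, map_add, map_ofNat, constantCoeff_X, add_zero]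
        exact h2
      have := h3.map ψ
      rwa [map_add, map_ofNat] at this
    have k1 : ψ (ihlX q true 0 0) = ψ (ihlX q true 1 1) := by
      have := hs _ (Or.inl (Or.inl (Or.inr ⟨q, rfl⟩)))
      rw [map_sub] at this
      linear_combination this
    have k2 : ψ (ihlX q true 0 1) = ψ (ihlX q false 1 0) := by
      have := hs _ (Or.inl (Or.inr ⟨q, rfl⟩))
      rw [map_sub] at this
      linear_combination this
    have k3 : ψ (ihlX q true 1 0) = ψ (ihlX q false 0 1) := by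
      have := hs _ (Or.inr ⟨q, rfl⟩)
      rw [map_sub] at this
      linear_combination this
    obtain ⟨n1, n2, n3, n4, n5, n6, n7, n8⟩ := H.nil u2 ue k1 k2 k3
    cases b <;> fin_cases i <;> fin_cases j <;> assumption
  · rw [hs _ (Or.inl (Or.inl (Or.inl (Or.inr ⟨γ, rfl⟩))))]
    simp

include hm h2 hτ hnn in
/-- a surjective image of `IhlR` killing `ihlJ` and the parameters has dimension `≤ 0` -/
theorem ihl_dim_zero {Q : Type*} [CommRing Q] (ψ : IhlR 𝒪 T G →+* Q)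
    (hψ : Function.Surjective ψ)
    (hJ : ihlJ τ nn ≤ RingHom.ker ψ) (hs : ∀ x ∈ ihlParams (T := T) (G := G) ϖ, ψ x = 0) :
    ringKrullDim Q ≤ 0 := by
  have hnil := ihl_X_pow_mem ϖ hm h2 τ nn hτ hnn ψ hJ hs
  rw [← Nat.cast_zero, ← Ring.krullDimLE_iff, Ring.krullDimLE_zero_iff]
  intro P hP
  have hcomap : maximalIdeal (IhlR 𝒪 T G) ≤ P.comap ψ := by
    rw [Fermat.Agent.S53Lib.maximalIdeal_eq_idealMX, Fermat.Agent.S53Lib.idealMX, hm,
      Ideal.map_span, Set.image_singleton]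
    refine sup_le ?_ ?_
    · rw [Ideal.span_le]
      rintro _ rfl
      show ψ (C ϖ) ∈ P
      rw [hs _ (Or.inl (Or.inl (Or.inl (Or.inl rfl))))]
      exact Ideal.zero_mem _
    · rw [Ideal.span_le]
      rintro _ ⟨x, rfl⟩
      show ψ (X x) ∈ P
      refine hP.mem_of_pow_mem 3 ?_
      rw [hnil x]
      exact Ideal.zero_mem _
  have hmax : P.comap ψ = maximalIdeal (IhlR 𝒪 T G) :=
    ((maximalIdeal.isMaximal _).eq_of_le (Ideal.comap_ne_top ψ hP.ne_top) hcomap).symm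
  have := Ideal.map_comap_of_surjective ψ hψ P
  rw [hmax] at this
  rw [← this]
  exact (Ideal.map_eq_top_or_isMaximal_of_surjective ψ hψ (maximalIdeal.isMaximal _)).resolve_left
    (by rw [this]; exact hP.ne_top)

include hm h2 hτ hnn in
/-- **the dimension bound** -/
theorem ihl_dim_le [IsNoetherianRing 𝒪] (I : Ideal (IhlR 𝒪 T G)) (hI : I ≠ ⊤)
    (hJ : ihlJ τ nn ≤ I) :
    ringKrullDim (IhlR 𝒪 T G ⧸ I) ≤ (1 + 3 * Nat.card T + Nat.card G : ℕ) := by
  have : IsLocalRing (IhlR 𝒪 T G ⧸ I) := Fermat.Agent.S53Lib.isLocalRing_quotient I hI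
  set s : Set (IhlR 𝒪 T G ⧸ I) := Ideal.Quotient.mk I '' ihlParams ϖ with hs
  have hsj : s ⊆ Ring.jacobson (IhlR 𝒪 T G ⧸ I) := by
    rw [IsLocalRing.ringJacobson_eq_maximalIdeal]
    rintro _ ⟨x, hx, rfl⟩
    have hxm : x ∈ maximalIdeal (IhlR 𝒪 T G) := by
      rw [Fermat.Agent.S53Lib.maximalIdeal_eq_comap_constantCoeff, Ideal.mem_comap]
      rcases hx with (((rfl | ⟨γ, rfl⟩) | ⟨q, rfl⟩) | ⟨q, rfl⟩) | ⟨q, rfl⟩
      · rw [constantCoeff_C, hm]
        exact Ideal.mem_span_singleton_self _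
      all_goals simp
    intro hu
    obtain ⟨y', hy'⟩ := hu.exists_right_inv
    obtain ⟨y, rfl⟩ := Ideal.Quotient.mk_surjective y'
    rw [← map_mul, ← map_one (Ideal.Quotient.mk I), Ideal.Quotient.eq] at hy'
    have h5 := IsLocalRing.le_maximalIdeal hI hy'
    have h6 : (1 : IhlR 𝒪 T G) ∈ maximalIdeal (IhlR 𝒪 T G) := by
      have := Ideal.sub_mem _ (Ideal.mul_mem_right y _ hxm) h5
      rwa [sub_sub_cancel] at this
    exact (Ideal.ne_top_iff_one _).mp (maximalIdeal.isMaximal _).ne_top h6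
  have h1 := ringKrullDim_le_ringKrullDim_quotient_add_encard s hsj
  have h0 : ringKrullDim ((IhlR 𝒪 T G ⧸ I) ⧸ Ideal.span s) ≤ 0 := by
    let ψ : IhlR 𝒪 T G →+* (IhlR 𝒪 T G ⧸ I) ⧸ Ideal.span s :=
      (Ideal.Quotient.mk (Ideal.span s)).comp (Ideal.Quotient.mk I)
    have hψ : Function.Surjective ψ := by
      intro y
      obtain ⟨z, rfl⟩ := Ideal.Quotient.mk_surjective (I := Ideal.span s) y
      obtain ⟨w, rfl⟩ := Ideal.Quotient.mk_surjective (I := I) z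
      exact ⟨w, rfl⟩
    refine ihl_dim_zero (Q := (IhlR 𝒪 T G ⧸ I) ⧸ Ideal.span s) ϖ hm h2 τ nn hτ hnn ψ hψ ?_ ?_
    · intro x hx
      rw [RingHom.mem_ker, RingHom.comp_apply, Ideal.Quotient.eq_zero_iff_mem.mpr (hJ hx),
        map_zero]
    · intro x hx
      rw [RingHom.comp_apply, Ideal.Quotient.eq_zero_iff_mem]
      exact Ideal.subset_span ⟨x, hx, rfl⟩
  have h3 : s.encard ≤ (1 + 3 * Nat.card T + Nat.card G : ℕ) :=
    (Set.encard_image_le _ _).trans (ihlParams_encard_le ϖ)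
  calc ringKrullDim (IhlR 𝒪 T G ⧸ I) ≤ ringKrullDim ((IhlR 𝒪 T G ⧸ I) ⧸ Ideal.span s) + s.encard :=
        h1
    _ ≤ 0 + ((1 + 3 * Nat.card T + Nat.card G : ℕ) : ℕ∞) := by
        refine add_le_add h0 ?_
        exact_mod_cast h3
    _ = _ := by
        rw [zero_add]
        rfl

end dim

end Fermat.Agent.Ihara
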