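import Fermat.Agent.Lib.S53.PowerSeriesP

/-!
# IHARA / L, part 7: the grading lemma

`ihl_grade` : let `φ : 𝒪[[X_ι]] → A` be the evaluation at `p` (`p i ∈ I`, `A` `I`-adically
separated) and `φτ : 𝒪[[X_ι]] → A[[τ]]` the evaluation at the point `p i` (`i ∉ S₁`),
`τ · c · p i` (`i ∈ S₁`), with `c` a non-zero-divisor.  Then `φτ f = 0` implies `φ f = 0`.
-/

set_option autoImplicit false

open MvPowerSeries

namespace Fermat.Agent.Ihara

section grade

variable {ι : Type*} {𝒪 : Type*} [CommRing 𝒪] (S₁ : ι → Prop) [DecidablePred S₁]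

/-- the `S₁`-weight of a monomial -/
noncomputable def ihlWt (α : ι →₀ ℕ) : ℕ := ∑ i ∈ α.support, if S₁ i then α i else 0

theorem ihlWt_le_degree (α : ι →₀ ℕ) : ihlWt S₁ α ≤ α.degree := by
  rw [Finsupp.degree_apply, ihlWt]
  refine Finset.sum_le_sum fun i _ => ?_
  split_ifs
  · exact le_rfl
  · exact Nat.zero_le _

/-- the component of `S₁`-weight `k` -/
noncomputable def ihlComp (k : ℕ) : MvPowerSeries ι 𝒪 →ₗ[𝒪] MvPowerSeries ι 𝒪 where
  toFun f := fun α => if ihlWt S₁ α = k then coeff α f else 0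
  map_add' f g := by
    funext α
    show (if ihlWt S₁ α = k then coeff α (f + g) else 0) =
      (if ihlWt S₁ α = k then coeff α f else 0) + (if ihlWt S₁ α = k then coeff α g else 0)
    split_ifs <;> simp
  map_smul' r f := by
    funext α
    show (if ihlWt S₁ α = k then coeff α (r • f) else 0) =
      r • (if ihlWt S₁ α = k then coeff α f else 0)
    split_ifs <;> simp

theorem ihl_coeff_comp (k : ℕ) (f : MvPowerSeries ι 𝒪) (α : ι →₀ ℕ) :
    coeff α (ihlComp S₁ k f) = if ihlWt S₁ α = k then coeff α f else 0 := rfl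

theorem ihlComp_monomial [DecidableEq ι] (k : ℕ) (α : ι →₀ ℕ) :
    ihlComp S₁ k (monomial α (1 : 𝒪)) = if ihlWt S₁ α = k then monomial α 1 else 0 := by
  ext β
  rw [ihl_coeff_comp]
  by_cases hβ : β = α
  · subst hβ
    split_ifs <;> simp
  · split_ifs <;> simp [coeff_monomial, hβ]

/-- `f - ∑_{k<n} f_k` has no terms of degree `< n` -/
theorem ihl_coeff_sub_sum_comp (n : ℕ) (f : MvPowerSeries ι 𝒪) (x : ι →₀ ℕ) (hx : x.degree < n) :
    coeff x (f - ∑ k ∈ Finset.range n, ihlComp S₁ k f) = 0 := by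
  rw [map_sub, map_sum, sub_eq_zero]
  simp only [ihl_coeff_comp]
  rw [Finset.sum_ite_eq, if_pos]
  exact Finset.mem_range.mpr (lt_of_le_of_lt (ihlWt_le_degree S₁ x) hx)

end grade

section coeffIdeal

variable {A : Type*} [CommRing A]

/-- power series with all coefficients in `𝔟` -/
def ihlCoeffIdeal (𝔟 : Ideal A) : Ideal (PowerSeries A) where
  carrier := {g | ∀ k, PowerSeries.coeff k g ∈ 𝔟}
  add_mem' hf hg k := by
    rw [map_add]
    exact Ideal.add_mem _ (hf k) (hg k)
  zero_mem' k := by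
    rw [map_zero]
    exact Ideal.zero_mem _
  smul_mem' h g hg k := by
    rw [smul_eq_mul, PowerSeries.coeff_mul]
    exact Ideal.sum_mem _ fun x _ => Ideal.mul_mem_left _ _ (hg _)

theorem ihl_mem_coeffIdeal {𝔟 : Ideal A} {g : PowerSeries A} :
    g ∈ ihlCoeffIdeal 𝔟 ↔ ∀ k, PowerSeries.coeff k g ∈ 𝔟 := Iff.rfl

theorem ihlCoeffIdeal_mul_le (𝔟 𝔠 : Ideal A) :
    ihlCoeffIdeal 𝔟 * ihlCoeffIdeal 𝔠 ≤ ihlCoeffIdeal (𝔟 * 𝔠) := by
  rw [Ideal.mul_le]
  intro g hg h hh k
  rw [PowerSeries.coeff_mul]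
  exact Ideal.sum_mem _ fun x _ => Ideal.mul_mem_mul (hg _) (hh _)

theorem ihlCoeffIdeal_pow_le (𝔟 : Ideal A) (n : ℕ) :
    ihlCoeffIdeal 𝔟 ^ n ≤ ihlCoeffIdeal (𝔟 ^ n) := by
  induction n with
  | zero =>
    intro g _ k
    simp
  | succ n ih =>
    rw [pow_succ, pow_succ]
    exact (Ideal.mul_mono_left ih).trans (ihlCoeffIdeal_mul_le _ _)

end coeffIdeal

section linext

variable {ι : Type*} [Finite ι] {𝒪 : Type*} [CommRing 𝒪] {A : Type*} [CommRing A] [Algebra 𝒪 A]

/-- two continuous `𝒪`-linear maps on `𝒪[[X_ι]]` which agree on monomials are equal -/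
theorem ihl_lin_ext (I : Ideal A) [IsHausdorff I A] (L₁ L₂ : MvPowerSeries ι 𝒪 →ₗ[𝒪] A)
    (h₁ : ∀ (n : ℕ) (f : MvPowerSeries ι 𝒪),
      (∀ x : ι →₀ ℕ, x.degree < n → coeff x f = 0) → L₁ f ∈ I ^ n)
    (h₂ : ∀ (n : ℕ) (f : MvPowerSeries ι 𝒪),
      (∀ x : ι →₀ ℕ, x.degree < n → coeff x f = 0) → L₂ f ∈ I ^ n)
    (hmon : ∀ α : ι →₀ ℕ, L₁ (monomial α 1) = L₂ (monomial α 1)) (f : MvPowerSeries ι 𝒪) :
    L₁ f = L₂ f := by
  rw [← sub_eq_zero]
  refine IsHausdorff.haus ‹IsHausdorff I A› _ (fun n => ?_)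
  rw [SModEq.zero, smul_eq_mul, Ideal.mul_top]
  have hpoly : ∀ P : MvPolynomial ι 𝒪, L₁ (P : MvPowerSeries ι 𝒪) = L₂ (P : MvPowerSeries ι 𝒪) := by
    intro P
    induction P using MvPolynomial.induction_on' with
    | monomial s r =>
      have : ((MvPolynomial.monomial s r : MvPolynomial ι 𝒪) : MvPowerSeries ι 𝒪) =
          r • monomial s (1 : 𝒪) := by
        classical
        rw [MvPolynomial.coe_monomial]
        ext β
        rw [map_smul, coeff_monomial, coeff_monomial, smul_eq_mul]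
        split_ifs <;> simp
      rw [this, map_smul, map_smul, hmon]
    | add p q hp hq =>
      rw [MvPolynomial.coe_add, map_add, map_add, hp, hq]
  have hlow : ∀ x : ι →₀ ℕ, x.degree < n →
      coeff x (f - ((truncTotal n f : MvPolynomial ι 𝒪) : MvPowerSeries ι 𝒪)) = 0 := by
    intro x hx
    rw [map_sub, MvPolynomial.coeff_coe, coeff_truncTotal _ hx, sub_self]
  have e : L₁ f - L₂ f =
      L₁ (f - ((truncTotal n f : MvPolynomial ι 𝒪) : MvPowerSeries ι 𝒪)) -
      L₂ (f - ((truncTotal n f : MvPolynomial ι 𝒪) : MvPowerSeries ι 𝒪)) := by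
    rw [map_sub, map_sub, hpoly]
    ring
  rw [e]
  exact Ideal.sub_mem _ (h₁ n _ hlow) (h₂ n _ hlow)

end linext

section main

variable {ι : Type*} [Finite ι] {𝒪 : Type*} [CommRing 𝒪] {A : Type*} [CommRing A] [Algebra 𝒪 A]
  (S₁ : ι → Prop) [DecidablePred S₁]

omit [Finite ι] in
theorem ihl_prod_scaled (p : ι → A) (c : A) (α : ι →₀ ℕ) :
    (α.prod fun i k => (if S₁ i then PowerSeries.X * PowerSeries.C (c * p i)
      else PowerSeries.C (p i) : PowerSeries A) ^ k) =
    PowerSeries.X ^ ihlWt S₁ α * PowerSeries.C (c ^ ihlWt S₁ α * α.prod fun i k => p i ^ k) := by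
  rw [Finsupp.prod, Finsupp.prod, ihlWt, map_mul, map_pow, ← Finset.prod_pow_eq_pow_sum,
    ← Finset.prod_pow_eq_pow_sum, map_prod, ← Finset.prod_mul_distrib, ← Finset.prod_mul_distrib]
  refine Finset.prod_congr rfl fun i _ => ?_
  split_ifs
  · rw [mul_pow, ← map_pow, mul_pow, map_mul, map_pow, map_pow]
  · rw [pow_zero, pow_zero, one_mul, one_mul, map_pow]

/-- **the grading lemma** -/
theorem ihl_grade (I : Ideal A) [IsHausdorff I A] (p : ι → A) (hp : ∀ i, p i ∈ I) (c : A)
    (hc : ∀ y : A, c * y = 0 → y = 0)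
    (φ : MvPowerSeries ι 𝒪 →ₐ[𝒪] A) (hφ : ∀ i, φ (X i) = p i)
    (φτ : MvPowerSeries ι 𝒪 →ₐ[𝒪] PowerSeries A)
    (hφτ : ∀ i, φτ (X i) = if S₁ i then PowerSeries.X * PowerSeries.C (c * p i)
      else PowerSeries.C (p i))
    (f : MvPowerSeries ι 𝒪) (hf : φτ f = 0) : φ f = 0 := by
  classical
  have hφI : ∀ i, φ (X i) ∈ I := fun i => by rw [hφ]; exact hp i
  have hφτI : ∀ i, φτ (X i) ∈ ihlCoeffIdeal I := by
    intro i k
    rw [hφτ]
    split_ifs
    · rcases k with _ | k
      · rw [PowerSeries.coeff_zero_X_mul]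
        exact Ideal.zero_mem _
      · rw [PowerSeries.coeff_succ_X_mul, PowerSeries.coeff_C]
        split_ifs
        · exact Ideal.mul_mem_left _ _ (hp i)
        · exact Ideal.zero_mem _
    · rw [PowerSeries.coeff_C]
      split_ifs
      · exact hp i
      · exact Ideal.zero_mem _
  -- (T1)
  have T1 : ∀ (k : ℕ) (g : MvPowerSeries ι 𝒪),
      PowerSeries.coeff k (φτ g) = c ^ k * φ (ihlComp S₁ k g) := by
    intro k
    let L₁ : MvPowerSeries ι 𝒪 →ₗ[𝒪] A :=
      { toFun := fun g => PowerSeries.coeff k (φτ g)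
        map_add' := fun g h => by rw [map_add, map_add]
        map_smul' := fun r g => by
          rw [map_smul, RingHom.id_apply, Algebra.smul_def, Algebra.smul_def]
          rw [PowerSeries.algebraMap_apply, PowerSeries.coeff_C_mul] }
    let L₂ : MvPowerSeries ι 𝒪 →ₗ[𝒪] A :=
      { toFun := fun g => c ^ k * φ (ihlComp S₁ k g)
        map_add' := fun g h => by rw [map_add, map_add, mul_add]
        map_smul' := fun r g => by
          rw [map_smul, map_smul, RingHom.id_apply, Algebra.smul_def, Algebra.smul_def]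
          ring }
    refine ihl_lin_ext I L₁ L₂ ?_ ?_ ?_
    · intro n g hg
      have h1 := Fermat.Agent.S53Lib.mem_span_X_pow_of_coeff_eq_zero hg
      have h2 := Fermat.Agent.S53Lib.algHom_mem_pow_of_mem_span_X_pow (ihlCoeffIdeal I) φτ hφτI h1
      exact ihlCoeffIdeal_pow_le I n h2 k
    · intro n g hg
      have h0 : ∀ x : ι →₀ ℕ, x.degree < n → coeff x (ihlComp S₁ k g) = 0 := by
        intro x hx
        rw [ihl_coeff_comp, hg x hx, ite_self]
      have h1 := Fermat.Agent.S53Lib.mem_span_X_pow_of_coeff_eq_zero h0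
      have h2 := Fermat.Agent.S53Lib.algHom_mem_pow_of_mem_span_X_pow I φ hφI h1
      exact Ideal.mul_mem_left _ _ h2
    · intro α
      show PowerSeries.coeff k (φτ (monomial α 1)) = c ^ k * φ (ihlComp S₁ k (monomial α 1))
      have hm : (monomial α (1 : 𝒪) : MvPowerSeries ι 𝒪) =
          ((MvPolynomial.monomial α (1 : 𝒪) : MvPolynomial ι 𝒪) : MvPowerSeries ι 𝒪) :=
        (MvPolynomial.coe_monomial α 1).symm
      have e1 : φτ (monomial α 1) = PowerSeries.X ^ ihlWt S₁ α *
          PowerSeries.C (c ^ ihlWt S₁ α * α.prod fun i k => p i ^ k) := by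
        rw [hm, Fermat.Agent.S53Lib.algHom_coe_eq_aeval, MvPolynomial.aeval_monomial, map_one,
          one_mul, ← ihl_prod_scaled]
        refine Finsupp.prod_congr fun i _ => ?_
        rw [hφτ]
      have e2 : φ (monomial α 1) = α.prod fun i k => p i ^ k := by
        rw [hm, Fermat.Agent.S53Lib.algHom_coe_eq_aeval, MvPolynomial.aeval_monomial, map_one,
          one_mul]
        refine Finsupp.prod_congr fun i _ => ?_
        rw [hφ]
      rw [e1, ihlComp_monomial, PowerSeries.coeff_X_pow_mul', PowerSeries.coeff_C]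
      by_cases hk : ihlWt S₁ α = k
      · rw [if_pos hk, e2, hk, if_pos le_rfl, if_pos (Nat.sub_self k)]
      · rw [if_neg hk, map_zero, mul_zero]
        split_ifs with h1 h2
        · exact absurd (by omega) hk
        · rfl
        · rfl
  -- (T2)
  have hcomp : ∀ k, φ (ihlComp S₁ k f) = 0 := by
    intro k
    have h1 := T1 k f
    rw [hf, map_zero] at h1
    have h2 : ∀ (j : ℕ) (y : A), c ^ j * y = 0 → y = 0 := by
      intro j
      induction j with
      | zero => intro y hy; simpa using hy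
      | succ j ih =>
        intro y hy
        refine hc y (ih _ ?_)
        rw [← hy]
        ring
    exact h2 k _ h1.symm
  refine IsHausdorff.haus ‹IsHausdorff I A› (φ f) (fun n => ?_)
  rw [SModEq.zero, smul_eq_mul, Ideal.mul_top]
  have h1 := Fermat.Agent.S53Lib.mem_span_X_pow_of_coeff_eq_zero (ihl_coeff_sub_sum_comp S₁ n f)
  have h2 := Fermat.Agent.S53Lib.algHom_mem_pow_of_mem_span_X_pow I φ hφI h1
  rw [map_sub, map_sum, Finset.sum_eq_zero (fun k _ => hcomp k), sub_zero] at h2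
  exact h2

end main

end Fermat.Agent.Ihara
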