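import Mathlib

/-!
# IHARA / L, part 2: power series over a domain with a prime element

For a domain `C` with a prime element `ϖ` (separated for the `ϖ`-adic topology), the same holds
for `C[[X_σ]]` with `C ϖ`; and in `C[[X₀, X₁]]` the element `E = D - 4 X₀ X₁` (`ϖ ∣ D`) satisfies
`ϖ ∣ x² - E y² → ϖ ∣ x ∧ ϖ ∣ y` (it is not a square modulo `ϖ`: parity of the `X₀`-adic order).
-/

set_option autoImplicit false
set_option linter.unusedSectionVars false
set_option linter.style.haveILetI false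

open MvPowerSeries

namespace Fermat.Agent.Ihara

section

variable {C : Type*} [CommRing C] {σ : Type*}

theorem ihl_ps_C_dvd_iff (ϖ : C) (f : MvPowerSeries σ C) :
    (MvPowerSeries.C ϖ : MvPowerSeries σ C) ∣ f ↔ ∀ e, ϖ ∣ coeff e f := by
  constructor
  · rintro ⟨g, rfl⟩ e
    rw [coeff_C_mul]
    exact dvd_mul_right _ _
  · intro h
    choose g hg using h
    let G : MvPowerSeries σ C := fun e => g e
    have hG : ∀ e, coeff e G = g e := fun e => rfl
    refine ⟨G, ?_⟩
    ext e
    rw [coeff_C_mul, hG, hg e]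

theorem ihl_ps_C_pow_dvd_iff (ϖ : C) (n : ℕ) (f : MvPowerSeries σ C) :
    (MvPowerSeries.C ϖ : MvPowerSeries σ C) ^ n ∣ f ↔ ∀ e, ϖ ^ n ∣ coeff e f := by
  rw [← map_pow, ihl_ps_C_dvd_iff]

theorem ihl_ps_isDomain [IsDomain C] : IsDomain (MvPowerSeries σ C) :=
  NoZeroDivisors.to_isDomain _

/-- `C ϖ ∣ f` iff `f` dies in `(C/ϖ)[[X]]` -/
theorem ihl_ps_C_dvd_iff_map (ϖ : C) (f : MvPowerSeries σ C) :
    (MvPowerSeries.C ϖ : MvPowerSeries σ C) ∣ f ↔
      MvPowerSeries.map (Ideal.Quotient.mk (Ideal.span {ϖ})) f = 0 := by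
  rw [ihl_ps_C_dvd_iff]
  constructor
  · intro h
    ext e
    rw [coeff_map, map_zero, Ideal.Quotient.eq_zero_iff_mem, Ideal.mem_span_singleton]
    exact h e
  · intro h e
    have := congrArg (coeff e) h
    rwa [coeff_map, map_zero, Ideal.Quotient.eq_zero_iff_mem, Ideal.mem_span_singleton] at this

theorem ihl_ps_prime [IsDomain C] {ϖ : C} (hϖ : Prime ϖ) :
    Prime (MvPowerSeries.C ϖ : MvPowerSeries σ C) := by
  haveI : (Ideal.span {ϖ}).IsPrime := (Ideal.span_singleton_prime hϖ.ne_zero).mpr hϖ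
  haveI : IsDomain (C ⧸ Ideal.span {ϖ}) := Ideal.Quotient.isDomain _
  refine ⟨?_, ?_, ?_⟩
  · intro h
    have := congrArg (coeff (0 : σ →₀ ℕ)) h
    rw [coeff_zero_C, map_zero] at this
    exact hϖ.ne_zero this
  · intro h
    have := h.map (constantCoeff (σ := σ) (R := C))
    rw [constantCoeff_C] at this
    exact hϖ.not_isUnit this
  · intro f g h
    rw [ihl_ps_C_dvd_iff_map] at h ⊢
    rw [ihl_ps_C_dvd_iff_map]
    rw [map_mul] at h
    exact mul_eq_zero.mp h

theorem ihl_ps_sep {ϖ : C} (hsep : ∀ x : C, (∀ n : ℕ, ϖ ^ n ∣ x) → x = 0)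
    (f : MvPowerSeries σ C) (hf : ∀ n : ℕ, (MvPowerSeries.C ϖ : MvPowerSeries σ C) ^ n ∣ f) :
    f = 0 := by
  ext e
  rw [map_zero]
  exact hsep _ fun n => (ihl_ps_C_pow_dvd_iff ϖ n f).mp (hf n) e

end

section H

variable {K : Type*} [CommRing K] [IsDomain K] {σ : Type*}

/-- in `K[[X_σ]]` (`K` a domain, `2 ≠ 0`, `i ≠ j`) the form `x² + 4 X_i X_j y²` is anisotropic -/
theorem ihl_ps_aniso (h2 : (2 : K) ≠ 0) {i j : σ} (hij : i ≠ j) (x y : MvPowerSeries σ K)
    (h : x * x + 4 * X i * X j * y * y = 0) : x = 0 ∧ y = 0 := by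
  classical
  haveI : IsDomain (MvPowerSeries σ K) := ihl_ps_isDomain
  have h4 : (4 : K) ≠ 0 := by
    have : (4 : K) = 2 * 2 := by norm_num
    rw [this]
    exact mul_ne_zero h2 h2
  by_cases hy : y = 0
  · subst hy
    refine ⟨?_, rfl⟩
    have : x * x = 0 := by linear_combination h
    exact mul_self_eq_zero.mp this
  · exfalso
    let w : σ → ℕ := fun k => if k = i then 1 else 0
    have hX : ∀ k : σ, (X k : MvPowerSeries σ K) ≠ 0 := by
      intro k h0
      have := congrArg (coeff (Finsupp.single k 1)) h0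
      rw [coeff_X, if_pos rfl, map_zero] at this
      exact one_ne_zero this
    have hx : x ≠ 0 := by
      rintro rfl
      have h1 : (4 : MvPowerSeries σ K) * X i * X j * y * y = 0 := by linear_combination h
      have h4' : (4 : MvPowerSeries σ K) ≠ 0 := by
        intro h0
        have := congrArg (coeff (0 : σ →₀ ℕ)) h0
        have e4 : (4 : MvPowerSeries σ K) = MvPowerSeries.C (4 : K) := by
          rw [map_ofNat]
        rw [e4, coeff_zero_C, map_zero] at this
        exact h4 this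
      exact (mul_ne_zero (mul_ne_zero (mul_ne_zero (mul_ne_zero h4' (hX i)) (hX j)) hy) hy) h1
    have e1 : x * x = MvPowerSeries.C (-4 : K) * X i * X j * y * y := by
      have e4 : (MvPowerSeries.C (-4 : K) : MvPowerSeries σ K) = -4 := by
        rw [map_neg, map_ofNat]
      rw [e4]
      linear_combination h
    have e2 := congrArg (weightedOrder w) e1
    rw [weightedOrder_mul, weightedOrder_mul, weightedOrder_mul, weightedOrder_mul,
      weightedOrder_mul] at e2
    have hC : weightedOrder w (MvPowerSeries.C (-4 : K) : MvPowerSeries σ K) = 0 := by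
      have : (MvPowerSeries.C (-4 : K) : MvPowerSeries σ K) = monomial 0 (-4 : K) := rfl
      rw [this, weightedOrder_monomial_of_ne_zero w (neg_ne_zero.mpr h4)]
      simp
    have hXi : weightedOrder w (X i : MvPowerSeries σ K) = 1 := by
      rw [X_def, weightedOrder_monomial_of_ne_zero w one_ne_zero]
      simp [Finsupp.weight_apply, w]
    have hXj : weightedOrder w (X j : MvPowerSeries σ K) = 0 := by
      rw [X_def, weightedOrder_monomial_of_ne_zero w one_ne_zero]
      simp [Finsupp.weight_apply, w, hij.symm]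
    rw [hC, hXi, hXj] at e2
    obtain ⟨a, ha⟩ : ∃ a : ℕ, weightedOrder w x = a := by
      have := (ne_zero_iff_weightedOrder_finite w).mp hx
      exact ⟨_, this.symm⟩
    obtain ⟨b, hb⟩ : ∃ b : ℕ, weightedOrder w y = b := by
      have := (ne_zero_iff_weightedOrder_finite w).mp hy
      exact ⟨_, this.symm⟩
    rw [ha, hb] at e2
    have e3 : a + a = 0 + 1 + 0 + b + b := by exact_mod_cast e2
    omega

variable {C : Type*} [CommRing C] [IsDomain C]

/-- the hypothesis `hH` of `ihl_quad_*` for `E = D - 4 X_i X_j` in `C[[X_σ]]` -/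
theorem ihl_ps_hH {ϖ : C} (hϖ : Prime ϖ) (h2 : IsUnit (2 : C)) {D : C} (hD : ϖ ∣ D)
    {i j : σ} (hij : i ≠ j) (x y : MvPowerSeries σ C)
    (h : (MvPowerSeries.C ϖ : MvPowerSeries σ C) ∣
      x * x - (MvPowerSeries.C D - 4 * X i * X j) * y * y) :
    (MvPowerSeries.C ϖ : MvPowerSeries σ C) ∣ x ∧
      (MvPowerSeries.C ϖ : MvPowerSeries σ C) ∣ y := by
  haveI : (Ideal.span {ϖ}).IsPrime := (Ideal.span_singleton_prime hϖ.ne_zero).mpr hϖ
  haveI : IsDomain (C ⧸ Ideal.span {ϖ}) := Ideal.Quotient.isDomain _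
  rw [ihl_ps_C_dvd_iff_map] at h ⊢
  rw [ihl_ps_C_dvd_iff_map]
  set bar := MvPowerSeries.map (σ := σ) (Ideal.Quotient.mk (Ideal.span {ϖ})) with hbar
  have hDbar : bar (MvPowerSeries.C D) = 0 := by
    rw [hbar, map_C, (Ideal.Quotient.eq_zero_iff_mem).mpr (Ideal.mem_span_singleton.mpr hD),
      map_zero]
  have h2K : (2 : C ⧸ Ideal.span {ϖ}) ≠ 0 := by
    have := h2.map (Ideal.Quotient.mk (Ideal.span {ϖ}))
    rw [map_ofNat] at this
    exact this.ne_zero
  refine ihl_ps_aniso h2K hij (bar x) (bar y) ?_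
  have e : bar (x * x - (MvPowerSeries.C D - 4 * X i * X j) * y * y) =
      bar x * bar x + 4 * X i * X j * bar y * bar y := by
    rw [map_sub, map_mul, map_mul, map_mul, map_sub, hDbar, map_mul, map_mul, map_ofNat]
    simp only [hbar, map_X]
    ring
  rw [← e, h]

end H

end Fermat.Agent.Ihara
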