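import Fermat.Agent.Lib.Ihara.L.Quad
import Fermat.Agent.Lib.Ihara.L.PsStep
import Fermat.Agent.Lib.S53.PowerSeriesP

/-!
# IHARA / L, part 3: the tower `S_T[[κ, x]]`

`IhlPack 𝒪 ϖ` bundles a complete Noetherian local domain over `𝒪` in which `ϖ` is prime (and which
is `ϖ`-adically separated, with `2` invertible).  It is stable under adjoining power series
variables (`IhlPack.ps`) and under the quadratic extensions of `Quad.lean` (`IhlPack.quadOver`).
`ihl_tower` : for a finite family `D : T → 𝒪` (`ϖ ∣ D q`) there is such a ring generated by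
`u_q, b_q, c_q, κ_q` (`q : T`) and `x_γ` (`γ : G`) with `u_q² + 4 b_q c_q = D_q`, with the expected
mapping property into complete local `𝒪`-algebras.
-/

set_option autoImplicit false
set_option linter.unusedSectionVars false
set_option linter.style.haveILetI false

open IsLocalRing MvPowerSeries

namespace Fermat.Agent.Ihara

universe u

/-- a complete Noetherian local domain over `𝒪` in which `ϖ` is prime -/
structure IhlPack (𝒪 : Type u) [CommRing 𝒪] (ϖ : 𝒪) where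
  carrier : Type u
  [ring : CommRing carrier]
  [alg : Algebra 𝒪 carrier]
  [dom : IsDomain carrier]
  [loc : IsLocalRing carrier]
  [noeth : IsNoetherianRing carrier]
  [compl : IsAdicComplete (maximalIdeal carrier) carrier]
  prime : Prime (algebraMap 𝒪 carrier ϖ)
  sep : ∀ x : carrier, (∀ n : ℕ, algebraMap 𝒪 carrier ϖ ^ n ∣ x) → x = 0
  two : IsUnit (2 : carrier)

attribute [instance] IhlPack.ring IhlPack.alg IhlPack.dom IhlPack.loc IhlPack.noeth IhlPack.compl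

variable {𝒪 : Type u} [CommRing 𝒪] {ϖ : 𝒪}

theorem IhlPack.varpi_mem (P : IhlPack 𝒪 ϖ) :
    algebraMap 𝒪 P.carrier ϖ ∈ maximalIdeal P.carrier :=
  P.prime.not_isUnit

theorem IhlPack.mem_of_dvd (P : IhlPack 𝒪 ϖ) {D : 𝒪} (hD : ϖ ∣ D) :
    algebraMap 𝒪 P.carrier D ∈ maximalIdeal P.carrier := by
  obtain ⟨D', rfl⟩ := hD
  rw [map_mul]
  exact Ideal.mul_mem_right _ _ P.varpi_mem

/-- the base of the tower -/
noncomputable def IhlPack.base (𝒪 : Type u) [CommRing 𝒪] [IsDomain 𝒪] [IsLocalRing 𝒪]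
    [IsNoetherianRing 𝒪] [IsAdicComplete (maximalIdeal 𝒪) 𝒪] (ϖ : 𝒪) (hϖ : Prime ϖ)
    (h2 : IsUnit (2 : 𝒪)) : IhlPack 𝒪 ϖ where
  carrier := 𝒪
  prime := hϖ
  sep := by
    intro x hx
    have h1 : Ideal.span {ϖ} ≠ ⊤ := by
      rw [Ne, Ideal.span_singleton_eq_top]
      exact hϖ.not_isUnit
    have h2 := Ideal.iInf_pow_eq_bot_of_isLocalRing (Ideal.span {ϖ}) h1
    have h3 : x ∈ ⨅ i, Ideal.span {ϖ} ^ i := by
      rw [Ideal.mem_iInf]
      intro n
      rw [Ideal.span_singleton_pow, Ideal.mem_span_singleton]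
      exact hx n
    rw [h2] at h3
    exact h3
  two := h2

/-- adjoining power series variables -/
noncomputable def IhlPack.ps (P : IhlPack 𝒪 ϖ) (σ : Type) [Finite σ] : IhlPack 𝒪 ϖ where
  carrier := MvPowerSeries σ P.carrier
  dom := ihl_ps_isDomain
  compl := Fermat.Agent.S53Lib.isAdicComplete_maximalIdeal
  prime := by
    rw [MvPowerSeries.algebraMap_apply]
    exact ihl_ps_prime P.prime
  sep := fun x hx => by
    refine ihl_ps_sep P.sep x fun n => ?_
    have := hx n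
    rwa [MvPowerSeries.algebraMap_apply] at this
  two := by
    have := P.two.map (MvPowerSeries.C (σ := σ) (R := P.carrier))
    rwa [map_ofNat] at this

/-- a quadratic extension -/
noncomputable def IhlPack.quadOver (B : IhlPack 𝒪 ϖ) (E : B.carrier)
    (hE : E ∈ maximalIdeal B.carrier)
    (hH : ∀ x y : B.carrier, algebraMap 𝒪 B.carrier ϖ ∣ x * x - E * y * y →
      algebraMap 𝒪 B.carrier ϖ ∣ x ∧ algebraMap 𝒪 B.carrier ϖ ∣ y) : IhlPack 𝒪 ϖ where
  carrier := QuadraticAlgebra B.carrier E 0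
  dom := ihl_quad_isDomain E (algebraMap 𝒪 B.carrier ϖ) B.prime.ne_zero B.sep hH
  loc := ihl_quad_isLocalRing E hE
  noeth := ihl_quad_isNoetherianRing E
  compl := @ihl_quad_isAdicComplete _ _ _ E _ _ hE (ihl_quad_isLocalRing E hE)
  prime := ihl_quad_prime E _ B.prime hH
  sep := by
    intro x hx
    have h1 : ∀ n : ℕ, algebraMap 𝒪 B.carrier ϖ ^ n ∣ x.re ∧
        algebraMap 𝒪 B.carrier ϖ ^ n ∣ x.im := by
      intro n
      have := hx n
      have e : (algebraMap 𝒪 (QuadraticAlgebra B.carrier E 0) ϖ) ^ n =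
          algebraMap B.carrier (QuadraticAlgebra B.carrier E 0)
            (algebraMap 𝒪 B.carrier ϖ ^ n) := by
        rw [map_pow]
        rfl
      rw [e] at this
      exact QuadraticAlgebra.algebraMap_dvd_iff.mp this
    ext
    · exact B.sep _ fun n => (h1 n).1
    · exact B.sep _ fun n => (h1 n).2
  two := by
    have := B.two.map (algebraMap B.carrier (QuadraticAlgebra B.carrier E 0))
    rwa [map_ofNat] at this

/-- the specification of the tower over the index type `T` -/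
def IhlTowerSpec (𝒪 : Type u) [CommRing 𝒪] (ϖ : 𝒪) (G : Type) (T : Type) : Prop :=
  ∀ (D : T → 𝒪), (∀ q, ϖ ∣ D q) →
    ∃ (P : IhlPack 𝒪 ϖ) (U Bv Cv Kv : T → P.carrier) (Xv : G → P.carrier),
      (∀ q, U q ∈ maximalIdeal P.carrier ∧ Bv q ∈ maximalIdeal P.carrier ∧
        Cv q ∈ maximalIdeal P.carrier ∧ Kv q ∈ maximalIdeal P.carrier) ∧
      (∀ γ, Xv γ ∈ maximalIdeal P.carrier) ∧
      (∀ q, U q * U q + 4 * Bv q * Cv q = algebraMap 𝒪 P.carrier (D q)) ∧
      ∀ (A' : Type u) [CommRing A'] [Algebra 𝒪 A'] [IsLocalRing A']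
        [IsAdicComplete (maximalIdeal A') A'] (u' b' c' k' : T → A') (x' : G → A'),
        (∀ q, u' q ∈ maximalIdeal A' ∧ b' q ∈ maximalIdeal A' ∧ c' q ∈ maximalIdeal A' ∧
          k' q ∈ maximalIdeal A') →
        (∀ γ, x' γ ∈ maximalIdeal A') →
        (∀ q, u' q * u' q + 4 * b' q * c' q = algebraMap 𝒪 A' (D q)) →
        ∃ ε : P.carrier →ₐ[𝒪] A',
          (∀ q, ε (U q) = u' q ∧ ε (Bv q) = b' q ∧ ε (Cv q) = c' q ∧ ε (Kv q) = k' q) ∧
          ∀ γ, ε (Xv γ) = x' γ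

theorem ihl_towerSpec_of_equiv {G T T' : Type} (e : T ≃ T') (h : IhlTowerSpec 𝒪 ϖ G T) :
    IhlTowerSpec 𝒪 ϖ G T' := by
  intro D hD
  obtain ⟨P, U, Bv, Cv, Kv, Xv, hm, hx, hrel, hUP⟩ := h (D ∘ e) fun q => hD (e q)
  refine ⟨P, U ∘ e.symm, Bv ∘ e.symm, Cv ∘ e.symm, Kv ∘ e.symm, Xv, fun q => hm _, hx,
    fun q => ?_, ?_⟩
  · have := hrel (e.symm q)
    simpa using this
  · intro A' _ _ _ _ u' b' c' k' x' hm' hx' hrel'
    obtain ⟨ε, hε, hεx⟩ := hUP A' (u' ∘ e) (b' ∘ e) (c' ∘ e) (k' ∘ e) x' (fun q => hm' _) hx'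
      (fun q => hrel' _)
    refine ⟨ε, fun q => ?_, hεx⟩
    have := hε (e.symm q)
    simpa using this

theorem ihl_towerSpec_empty [IsDomain 𝒪] [IsLocalRing 𝒪] [IsNoetherianRing 𝒪]
    [IsAdicComplete (maximalIdeal 𝒪) 𝒪] (hϖ : Prime ϖ) (h2 : IsUnit (2 : 𝒪)) (G : Type)
    [Finite G] : IhlTowerSpec 𝒪 ϖ G PEmpty := by
  intro D hD
  refine ⟨(IhlPack.base 𝒪 ϖ hϖ h2).ps G, fun q => q.elim, fun q => q.elim, fun q => q.elim,
    fun q => q.elim, fun γ => (X γ : MvPowerSeries G 𝒪), fun q => q.elim, fun γ => ?_,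
    fun q => q.elim, ?_⟩
  · show (X γ : MvPowerSeries G 𝒪) ∈ maximalIdeal (MvPowerSeries G 𝒪)
    rw [Fermat.Agent.S53Lib.maximalIdeal_eq_comap_constantCoeff, Ideal.mem_comap,
      constantCoeff_X]
    exact Ideal.zero_mem _
  · intro A' _ _ _ _ u' b' c' k' x' hm' hx' hrel'
    refine ⟨Fermat.Agent.S53Lib.evalAdic (maximalIdeal A') x' hx', fun q => q.elim, fun γ => ?_⟩
    exact Fermat.Agent.S53Lib.evalAdic_X _ _ _ _

/-- membership in the maximal ideal of a power series ring -/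
theorem ihl_ps_mem_maximalIdeal {C : Type*} [CommRing C] [IsLocalRing C] {σ : Type*}
    (f : MvPowerSeries σ C) :
    f ∈ maximalIdeal (MvPowerSeries σ C) ↔ constantCoeff f ∈ maximalIdeal C := by
  rw [Fermat.Agent.S53Lib.maximalIdeal_eq_comap_constantCoeff, Ideal.mem_comap]

section step

variable {C : Type u} [CommRing C] [Algebra 𝒪 C] (d : C)

/-- the new quadratic algebra of one step of the tower -/
abbrev IhlStepB (C : Type u) [CommRing C] := MvPowerSeries (Fin 3) C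

/-- `E = d - 4 X₀ X₁` -/
noncomputable abbrev ihlStepE : IhlStepB C := MvPowerSeries.C d - 4 * X 0 * X 1

abbrev IhlStepQ := QuadraticAlgebra (IhlStepB C) (ihlStepE d) 0

/-- the structure map `C → C[[X₀,X₁,X₂]][ω]` -/
noncomputable def ihlStepι : C →+* IhlStepQ d :=
  (algebraMap (IhlStepB C) (IhlStepQ d)).comp (MvPowerSeries.C : C →+* IhlStepB C)

/-- the new variables -/
noncomputable def ihlStepX (i : Fin 3) : IhlStepQ d :=
  algebraMap (IhlStepB C) (IhlStepQ d) (X i)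

theorem ihlStepι_algebraMap (r : 𝒪) :
    algebraMap 𝒪 (IhlStepQ d) r = ihlStepι d (algebraMap 𝒪 C r) := by
  show algebraMap (IhlStepB C) (IhlStepQ d) (algebraMap 𝒪 (IhlStepB C) r) = _
  rw [MvPowerSeries.algebraMap_apply]
  rfl

theorem ihlStep_rel :
    (QuadraticAlgebra.omega : IhlStepQ d) * QuadraticAlgebra.omega +
      4 * ihlStepX d 0 * ihlStepX d 1 = ihlStepι d d := by
  rw [ihl_quad_omega_sq]
  have h2 : (4 : IhlStepQ d) = algebraMap (IhlStepB C) (IhlStepQ d) 4 := (map_ofNat _ 4).symm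
  rw [h2, ihlStepX, ihlStepX, ← map_mul, ← map_mul, ← map_add]
  show _ = algebraMap (IhlStepB C) (IhlStepQ d) (MvPowerSeries.C d)
  congr 1
  rw [sub_add_cancel]

variable [IsLocalRing C]

theorem ihlStepE_mem (hd : d ∈ maximalIdeal C) : ihlStepE d ∈ maximalIdeal (IhlStepB C) := by
  rw [ihl_ps_mem_maximalIdeal, map_sub, constantCoeff_C, map_mul, map_mul, constantCoeff_X,
    mul_zero, zero_mul, sub_zero]
  exact hd

theorem ihlStepι_mem (hd : d ∈ maximalIdeal C) [IsLocalRing (IhlStepQ d)] {z : C}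
    (hz : z ∈ maximalIdeal C) : ihlStepι d z ∈ maximalIdeal (IhlStepQ d) := by
  rw [ihl_quad_mem_maximalIdeal_iff _ (ihlStepE_mem d hd)]
  show (MvPowerSeries.C z : IhlStepB C) ∈ _
  rw [ihl_ps_mem_maximalIdeal, constantCoeff_C]
  exact hz

theorem ihlStepX_mem (hd : d ∈ maximalIdeal C) [IsLocalRing (IhlStepQ d)] (i : Fin 3) :
    ihlStepX d i ∈ maximalIdeal (IhlStepQ d) := by
  rw [ihl_quad_mem_maximalIdeal_iff _ (ihlStepE_mem d hd)]
  show (X i : IhlStepB C) ∈ _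
  rw [ihl_ps_mem_maximalIdeal, constantCoeff_X]
  exact Ideal.zero_mem _

/-- the mapping property of one step -/
theorem ihlStep_lift {A' : Type u} [CommRing A'] [Algebra 𝒪 A'] [IsLocalRing A']
    [IsAdicComplete (maximalIdeal A') A'] (ε₀ : C →ₐ[𝒪] A') (u' b' c' k' : A')
    (_hu : u' ∈ maximalIdeal A') (hb : b' ∈ maximalIdeal A') (hc : c' ∈ maximalIdeal A')
    (hk : k' ∈ maximalIdeal A') (hrel : u' * u' + 4 * b' * c' = ε₀ d) :
    ∃ ε : IhlStepQ d →ₐ[𝒪] A', (∀ z, ε (ihlStepι d z) = ε₀ z) ∧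
      ε QuadraticAlgebra.omega = u' ∧ ε (ihlStepX d 0) = b' ∧ ε (ihlStepX d 1) = c' ∧
      ε (ihlStepX d 2) = k' := by
  letI : Algebra C A' := ε₀.toRingHom.toAlgebra
  have halg₀ : ∀ z : C, algebraMap C A' z = ε₀ z := fun z => rfl
  let a₁ : Fin 3 → A' := ![b', c', k']
  have ha₁ : ∀ i, a₁ i ∈ maximalIdeal A' := by
    intro i
    fin_cases i
    · exact hb
    · exact hc
    · exact hk
  let ε₁ : IhlStepB C →ₐ[C] A' := Fermat.Agent.S53Lib.evalAdic (maximalIdeal A') a₁ ha₁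
  have hε₁X : ∀ i, ε₁ (X i) = a₁ i := fun i => Fermat.Agent.S53Lib.evalAdic_X _ _ _ _
  have hε₁C : ∀ z : C, ε₁ (MvPowerSeries.C z) = ε₀ z := by
    intro z
    have : (MvPowerSeries.C z : IhlStepB C) = algebraMap C (IhlStepB C) z := by
      rw [MvPowerSeries.c_eq_algebraMap]
    rw [this, AlgHom.commutes, halg₀]
  letI : Algebra (IhlStepB C) A' := ε₁.toRingHom.toAlgebra
  have halg₁ : ∀ z : IhlStepB C, algebraMap (IhlStepB C) A' z = ε₁ z := fun z => rfl
  have hroot : u' * u' = ihlStepE d • (1 : A') + (0 : IhlStepB C) • u' := by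
    rw [zero_smul, add_zero, Algebra.smul_def, mul_one, halg₁, map_sub, hε₁C, map_mul, map_mul,
      hε₁X, hε₁X, map_ofNat]
    show _ = _ - 4 * b' * c'
    linear_combination hrel
  let ε₂ : IhlStepQ d →ₐ[IhlStepB C] A' := QuadraticAlgebra.lift ⟨u', hroot⟩
  have hε₂ι : ∀ z : IhlStepB C, ε₂ (algebraMap (IhlStepB C) (IhlStepQ d) z) = ε₁ z := by
    intro z
    rw [AlgHom.commutes, halg₁]
  have hε₂ω : ε₂ QuadraticAlgebra.omega = u' := by
    show (QuadraticAlgebra.lift ⟨u', hroot⟩ : IhlStepQ d →ₐ[IhlStepB C] A')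
      QuadraticAlgebra.omega = u'
    rw [QuadraticAlgebra.lift_apply_apply]
    simp
  have hε₂ιι : ∀ z : C, ε₂ (ihlStepι d z) = ε₀ z := by
    intro z
    show ε₂ (algebraMap (IhlStepB C) (IhlStepQ d) (MvPowerSeries.C z)) = ε₀ z
    rw [hε₂ι]
    exact hε₁C z
  let ε : IhlStepQ d →ₐ[𝒪] A' :=
    { ε₂.toRingHom with
      commutes' := by
        intro r
        show ε₂ (algebraMap 𝒪 (IhlStepQ d) r) = algebraMap 𝒪 A' r
        rw [ihlStepι_algebraMap, hε₂ιι, AlgHom.commutes] }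
  have hεε₂ : ∀ z : IhlStepQ d, ε z = ε₂ z := fun z => rfl
  refine ⟨ε, fun z => ?_, ?_, ?_, ?_, ?_⟩
  · rw [hεε₂, hε₂ιι]
  · rw [hεε₂, hε₂ω]
  · rw [hεε₂, ihlStepX, hε₂ι, hε₁X]
    rfl
  · rw [hεε₂, ihlStepX, hε₂ι, hε₁X]
    rfl
  · rw [hεε₂, ihlStepX, hε₂ι, hε₁X]
    rfl

end step

theorem ihl_towerSpec_option {G T : Type} [Finite G] (h : IhlTowerSpec 𝒪 ϖ G T) :
    IhlTowerSpec 𝒪 ϖ G (Option T) := by
  intro D hD
  obtain ⟨P, U, Bv, Cv, Kv, Xv, hm, hx, hrel, hUP⟩ := h (D ∘ some) fun q => hD (some q)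
  -- the new ring
  set d : P.carrier := algebraMap 𝒪 P.carrier (D none) with hd_def
  have hd : d ∈ maximalIdeal P.carrier := P.mem_of_dvd (hD none)
  have hE : ihlStepE d ∈ maximalIdeal (IhlStepB P.carrier) := ihlStepE_mem d hd
  have hH : ∀ x y : IhlStepB P.carrier,
      algebraMap 𝒪 (IhlStepB P.carrier) ϖ ∣ x * x - ihlStepE d * y * y →
      algebraMap 𝒪 (IhlStepB P.carrier) ϖ ∣ x ∧ algebraMap 𝒪 (IhlStepB P.carrier) ϖ ∣ y := by
    intro x y hxy
    have e : algebraMap 𝒪 (IhlStepB P.carrier) ϖ = (MvPowerSeries.C (algebraMap 𝒪 P.carrier ϖ) :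
        MvPowerSeries (Fin 3) P.carrier) := MvPowerSeries.algebraMap_apply
    rw [e] at hxy ⊢
    exact ihl_ps_hH P.prime P.two ((algebraMap 𝒪 P.carrier).map_dvd (hD none))
      (show (0 : Fin 3) ≠ 1 by decide) x y hxy
  haveI hloc : IsLocalRing (IhlStepQ d) := ihl_quad_isLocalRing _ (ihlStepE_mem d hd)
  refine ⟨(P.ps (Fin 3)).quadOver (ihlStepE d) hE hH,
    fun o => o.elim (QuadraticAlgebra.omega : IhlStepQ d) fun q => ihlStepι d (U q),
    fun o => o.elim (ihlStepX d 0) fun q => ihlStepι d (Bv q),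
    fun o => o.elim (ihlStepX d 1) fun q => ihlStepι d (Cv q),
    fun o => o.elim (ihlStepX d 2) fun q => ihlStepι d (Kv q),
    fun γ => ihlStepι d (Xv γ), ?_, ?_, ?_, ?_⟩
  · rintro (_ | q)
    · exact ⟨ihl_quad_omega_mem _ (ihlStepE_mem d hd), ihlStepX_mem d hd 0, ihlStepX_mem d hd 1,
        ihlStepX_mem d hd 2⟩
    · exact ⟨ihlStepι_mem d hd (hm q).1, ihlStepι_mem d hd (hm q).2.1,
        ihlStepι_mem d hd (hm q).2.2.1, ihlStepι_mem d hd (hm q).2.2.2⟩
  · intro γ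
    exact ihlStepι_mem d hd (hx γ)
  · rintro (_ | q)
    · have := ihlStep_rel d
      rw [hd_def, ← ihlStepι_algebraMap] at this
      exact this
    · have h1 : ihlStepι d (U q) * ihlStepι d (U q) + 4 * ihlStepι d (Bv q) * ihlStepι d (Cv q) =
          algebraMap 𝒪 (IhlStepQ d) (D (some q)) := by
        rw [ihlStepι_algebraMap]
        have := hrel q
        rw [Function.comp_apply] at this
        rw [← this, map_add, map_mul, map_mul, map_mul, map_ofNat]
      exact h1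
  · intro A' _ _ _ _ u' b' c' k' x' hm' hx' hrel'
    obtain ⟨ε₀, hε₀, hε₀x⟩ := hUP A' (u' ∘ some) (b' ∘ some) (c' ∘ some) (k' ∘ some) x'
      (fun q => hm' _) hx' (fun q => hrel' _)
    have hrel0 : u' none * u' none + 4 * b' none * c' none = ε₀ d := by
      rw [hd_def, AlgHom.commutes]
      exact hrel' none
    obtain ⟨ε, h1, h2, h3, h4, h5⟩ := ihlStep_lift d ε₀ (u' none) (b' none) (c' none) (k' none)
      (hm' none).1 (hm' none).2.1 (hm' none).2.2.1 (hm' none).2.2.2 hrel0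
    refine ⟨ε, ?_, ?_⟩
    · rintro (_ | q)
      · exact ⟨h2, h3, h4, h5⟩
      · exact ⟨(h1 _).trans (hε₀ q).1, (h1 _).trans (hε₀ q).2.1, (h1 _).trans (hε₀ q).2.2.1,
          (h1 _).trans (hε₀ q).2.2.2⟩
    · intro γ
      exact (h1 _).trans (hε₀x γ)

/-- **the tower exists** -/
theorem ihl_tower [IsDomain 𝒪] [IsLocalRing 𝒪] [IsNoetherianRing 𝒪]
    [IsAdicComplete (maximalIdeal 𝒪) 𝒪] (hϖ : Prime ϖ) (h2 : IsUnit (2 : 𝒪)) (G T : Type)
    [Finite G] [Finite T] : IhlTowerSpec 𝒪 ϖ G T := by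
  refine Finite.induction_empty_option (P := fun T => IhlTowerSpec 𝒪 ϖ G T) ?_ ?_ ?_ T
  · intro α β e h
    exact ihl_towerSpec_of_equiv e h
  · exact ihl_towerSpec_empty hϖ h2 G
  · intro α _ h
    exact ihl_towerSpec_option h

end Fermat.Agent.Ihara
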