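import Fermat.Agent.Lib.Ihara.L.Red
import Fermat.Agent.Lib.Ihara.L.Grade
import Fermat.Agent.Lib.Ihara.L.Tower

/-!
# IHARA / L, part 9: the generic prime

`ihl_generic` : there is a prime `𝔭 ⊇ ihlJ τ nn` of `IhlR 𝒪 T G` contained in every prime
`𝔔 ⊇ ihlJ τ nn` with `ϖ ∉ 𝔔`: the kernel of `Ψ = Ψ' ∘ ρ : IhlR → 𝒟` (`𝒟` the tower of `Tower.lean`,
`Ψ' : N_q ↦ (U,B,C)_q`, `Φ₀_q ↦ K_q • (U,B,C)_q`).
-/

set_option autoImplicit false
set_option linter.style.haveILetI false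

open MvPowerSeries IsLocalRing

namespace Fermat.Agent.Ihara

universe u

/-- the image of the maximal ideal in a quotient of a local ring -/
theorem ihl_quot_mk_mem {R : Type*} [CommRing R] [IsLocalRing R] (I : Ideal R) (hI : I ≠ ⊤)
    [IsLocalRing (R ⧸ I)] {x : R} (hx : x ∈ maximalIdeal R) :
    Ideal.Quotient.mk I x ∈ maximalIdeal (R ⧸ I) := by
  intro hu
  obtain ⟨y', hy'⟩ := hu.exists_right_inv
  obtain ⟨y, rfl⟩ := Ideal.Quotient.mk_surjective y'
  rw [← map_mul, ← map_one (Ideal.Quotient.mk I), Ideal.Quotient.eq] at hy'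
  have h5 := IsLocalRing.le_maximalIdeal hI hy'
  have h6 : (1 : R) ∈ maximalIdeal R := by
    have := Ideal.sub_mem _ (Ideal.mul_mem_right y _ hx) h5
    rwa [sub_sub_cancel] at this
  exact (Ideal.ne_top_iff_one _).mp (maximalIdeal.isMaximal _).ne_top h6

/-- `𝒪 → 𝒪[[X]]/𝔔` is injective when `ϖ ∉ 𝔔` -/
theorem ihl_C_mem_prime {𝒪 : Type*} [CommRing 𝒪] [IsLocalRing 𝒪]
    [IsHausdorff (maximalIdeal 𝒪) 𝒪] {ϖ : 𝒪} (hm : maximalIdeal 𝒪 = Ideal.span {ϖ})
    {σ : Type*} (𝔔 : Ideal (MvPowerSeries σ 𝒪)) [h𝔔 : 𝔔.IsPrime] (hϖ𝔔 : C ϖ ∉ 𝔔) {x : 𝒪}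
    (hx : C x ∈ 𝔔) : x = 0 := by
  have key : ∀ n : ℕ, ϖ ^ n ∣ x := by
    intro n
    induction n with
    | zero => simp
    | succ n ih =>
      obtain ⟨y, rfl⟩ := ih
      rw [map_mul, map_pow] at hx
      have hy : C y ∈ 𝔔 := (h𝔔.mem_or_mem hx).resolve_left fun h => hϖ𝔔 (h𝔔.mem_of_pow_mem n h)
      have hym : y ∈ maximalIdeal 𝒪 := by
        intro hu
        exact h𝔔.ne_top (Ideal.eq_top_of_isUnit_mem _ hy (hu.map C))
      rw [hm, Ideal.mem_span_singleton] at hym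
      obtain ⟨z, rfl⟩ := hym
      exact ⟨z, by ring⟩
  refine IsHausdorff.haus ‹IsHausdorff (maximalIdeal 𝒪) 𝒪› x (fun n => ?_)
  rw [SModEq.zero, smul_eq_mul, Ideal.mul_top, hm, Ideal.span_singleton_pow,
    Ideal.mem_span_singleton]
  exact key n

section

variable {T G : Type}

/-- the values of `Ψ'` -/
def ihlPsiVal {𝒟 : Type*} [CommRing 𝒟] (U Bv Cv Kv : T → 𝒟) (Xv : G → 𝒟) : IhlIdx' T G → 𝒟
  | Sum.inl (q, false, j) => ![U q, Bv q, Cv q] j
  | Sum.inl (q, true, j) => Kv q * ![U q, Bv q, Cv q] j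
  | Sum.inr γ => Xv γ

/-- the `Φ₀`-variables -/
def ihlIsPhi : IhlIdx' T G → Bool
  | Sum.inl (_, b, _) => b
  | Sum.inr _ => false

end

variable {𝒪 : Type u} [CommRing 𝒪] [IsDomain 𝒪] [IsLocalRing 𝒪] [IsNoetherianRing 𝒪]
  [IsAdicComplete (maximalIdeal 𝒪) 𝒪] {T G : Type} [Finite T] [Finite G]

/-- **the generic prime** -/
theorem ihl_generic {ϖ : 𝒪} (hϖ : Prime ϖ) (hm : maximalIdeal 𝒪 = Ideal.span {ϖ})
    (h2 : IsUnit (2 : 𝒪)) (τ nn : T → 𝒪) (hτ : ∀ q, τ q - 2 ∈ maximalIdeal 𝒪)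
    (hnn : ∀ q, nn q - 1 ∈ maximalIdeal 𝒪) (hD : ∀ q, τ q ^ 2 - 4 ≠ 0) :
    ∃ 𝔭 : Ideal (IhlR 𝒪 T G), 𝔭.IsPrime ∧ ihlJ τ nn ≤ 𝔭 ∧
      ∀ 𝔔 : Ideal (IhlR 𝒪 T G), 𝔔.IsPrime → ihlJ τ nn ≤ 𝔔 → (C ϖ : IhlR 𝒪 T G) ∉ 𝔔 → 𝔭 ≤ 𝔔 := by
  classical
  haveI : Fintype T := Fintype.ofFinite T
  obtain ⟨i2, hi2⟩ := h2.exists_right_inv
  haveI hR'c : IsAdicComplete (maximalIdeal (IhlR' 𝒪 T G)) (IhlR' 𝒪 T G) :=
    Fermat.Agent.S53Lib.isAdicComplete_maximalIdeal
  have h2' : IsUnit (2 : IhlR' 𝒪 T G) := by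
    have := h2.map (C (σ := IhlIdx' T G) (R := 𝒪))
    rwa [map_ofNat] at this
  have hXm : ∀ y : IhlIdx' T G, (X y : IhlR' 𝒪 T G) ∈ maximalIdeal (IhlR' 𝒪 T G) := by
    intro y
    rw [Fermat.Agent.S53Lib.maximalIdeal_eq_comap_constantCoeff, Ideal.mem_comap, constantCoeff_X]
    exact Ideal.zero_mem _
  -- the Hensel roots
  have hy : ∀ q : T, (4 * C (nn q - 1) + (ihlY q true 0 * ihlY q true 0 +
      4 * ihlY q true 1 * ihlY q true 2) : IhlR' 𝒪 T G) ∈ maximalIdeal (IhlR' 𝒪 T G) := by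
    intro q
    refine Ideal.add_mem _ (Ideal.mul_mem_left _ _ ?_)
      (Ideal.add_mem _ (Ideal.mul_mem_left _ _ (hXm _)) (Ideal.mul_mem_left _ _ (hXm _)))
    rw [Fermat.Agent.S53Lib.maximalIdeal_eq_comap_constantCoeff, Ideal.mem_comap, constantCoeff_C]
    exact hnn q
  choose ω hωm hωr using fun q => ihl_hensel_root h2' _ (hy q)
  -- `ρ`
  let ρ : IhlR 𝒪 T G →ₐ[𝒪] IhlR' 𝒪 T G :=
    Fermat.Agent.S53Lib.evalAdic (maximalIdeal (IhlR' 𝒪 T G)) (ihlRhoVal i2 τ ω)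
      (ihlRhoVal_mem i2 τ hτ ω hωm)
  have hρ : ∀ x, ρ (X x) = ihlRhoVal i2 τ ω x := fun x =>
    Fermat.Agent.S53Lib.evalAdic_X _ _ _ _
  -- the tower
  have hDϖ : ∀ q, ϖ ∣ τ q ^ 2 - 4 := by
    intro q
    have := hτ q
    rw [hm, Ideal.mem_span_singleton] at this
    obtain ⟨z, hz⟩ := this
    exact ⟨z * (τ q + 2), by linear_combination (τ q + 2) * hz⟩
  obtain ⟨P, U, Bv, Cv, Kv, Xv, hmem, hx, hrel, hUP⟩ :=
    ihl_tower hϖ h2 G T (fun q => τ q ^ 2 - 4) hDϖ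
  have hΨm : ∀ x, ihlPsiVal U Bv Cv Kv Xv x ∈ maximalIdeal P.carrier := by
    rintro (⟨q, b, j⟩ | γ)
    · cases b <;> fin_cases j
      · exact (hmem q).1
      · exact (hmem q).2.1
      · exact (hmem q).2.2.1
      · exact Ideal.mul_mem_left _ _ (hmem q).1
      · exact Ideal.mul_mem_left _ _ (hmem q).2.1
      · exact Ideal.mul_mem_left _ _ (hmem q).2.2.1
    · exact hx γ
  let Ψ' : IhlR' 𝒪 T G →ₐ[𝒪] P.carrier :=
    Fermat.Agent.S53Lib.evalAdic (maximalIdeal P.carrier) (ihlPsiVal U Bv Cv Kv Xv) hΨm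
  have hΨ' : ∀ x, Ψ' (X x) = ihlPsiVal U Bv Cv Kv Xv x := fun x =>
    Fermat.Agent.S53Lib.evalAdic_X _ _ _ _
  refine ⟨RingHom.ker ((Ψ'.comp ρ : IhlR 𝒪 T G →ₐ[𝒪] P.carrier) : IhlR 𝒪 T G →+* P.carrier),
    RingHom.ker_isPrime _, ?_, ?_⟩
  · refine ihl_J_le_ker_comp i2 hi2 τ nn ω hωr ρ hρ Ψ' Kv ?_ ?_
    · intro q
      rw [ihlY, ihlY, ihlY, hΨ', hΨ', hΨ']
      exact hrel q
    · intro q j
      rw [ihlY, ihlY, hΨ', hΨ']
      rfl
  · intro 𝔔 h𝔔 hJ𝔔 hϖ𝔔 F hF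
    have hF0 : Ψ' (ρ F) = 0 := hF
    -- the quotient
    haveI : IsLocalRing (IhlR 𝒪 T G ⧸ 𝔔) :=
      Fermat.Agent.S53Lib.isLocalRing_quotient 𝔔 h𝔔.ne_top
    haveI : IsAdicComplete (maximalIdeal (IhlR 𝒪 T G ⧸ 𝔔)) (IhlR 𝒪 T G ⧸ 𝔔) :=
      Fermat.Agent.S53Lib.isAdicComplete_quotient 𝔔
    haveI : IsLocalHom (algebraMap 𝒪 (IhlR 𝒪 T G ⧸ 𝔔)) :=
      Fermat.Agent.S53Lib.isLocalHom_algebraMap_quotient 𝔔
    haveI : IsHausdorff (maximalIdeal (IhlR 𝒪 T G ⧸ 𝔔)) (IhlR 𝒪 T G ⧸ 𝔔) :=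
      IsAdicComplete.toIsHausdorff
    set A := IhlR 𝒪 T G ⧸ 𝔔 with hA
    let φ : IhlR 𝒪 T G →ₐ[𝒪] A := Ideal.Quotient.mkₐ 𝒪 𝔔
    have hφm : ∀ x, φ (X x) ∈ maximalIdeal A := by
      intro x
      refine ihl_quot_mk_mem 𝔔 h𝔔.ne_top ?_
      rw [Fermat.Agent.S53Lib.maximalIdeal_eq_comap_constantCoeff, Ideal.mem_comap,
        constantCoeff_X]
      exact Ideal.zero_mem _
    have hJφ : ihlJ τ nn ≤ RingHom.ker (φ : IhlR 𝒪 T G →+* A) := by
      intro x hx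
      exact Ideal.Quotient.eq_zero_iff_mem.mpr (hJ𝔔 hx)
    let σ : IhlR' 𝒪 T G →ₐ[𝒪] A :=
      Fermat.Agent.S53Lib.evalAdic (maximalIdeal A) (ihlSigVal φ) (ihlSigVal_mem φ hφm)
    have hσ : ∀ x, σ (X x) = ihlSigVal φ x := fun x => Fermat.Agent.S53Lib.evalAdic_X _ _ _ _
    have hσρ : σ.comp ρ = φ := ihl_sigma_rho i2 hi2 τ nn ω hωm hωr ρ hρ φ hφm hJφ σ hσ
    -- the relations in `A`
    have hC : ∀ z : 𝒪, (φ : IhlR 𝒪 T G →+* A) (C z) = algebraMap 𝒪 A z := by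
      intro z
      have : (C z : IhlR 𝒪 T G) = algebraMap 𝒪 (IhlR 𝒪 T G) z := by
        rw [MvPowerSeries.c_eq_algebraMap]
      rw [this]
      exact AlgHom.commutes φ z
    have H : ∀ q, IhlRel (algebraMap 𝒪 A (τ q)) (algebraMap 𝒪 A (nn q))
        (φ (ihlX q false 0 0)) (φ (ihlX q false 0 1)) (φ (ihlX q false 1 0))
        (φ (ihlX q false 1 1)) (φ (ihlX q true 0 0)) (φ (ihlX q true 0 1))
        (φ (ihlX q true 1 0)) (φ (ihlX q true 1 1)) := by
      intro q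
      have := (ihl_J_le_ker_iff (φ : IhlR 𝒪 T G →+* A) τ nn).mp hJφ q
      rw [hC, hC] at this
      exact this
    -- the scaling constant
    set DD : 𝒪 := ∏ q, (τ q ^ 2 - 4) with hDD
    let E : T → 𝒪 := fun q => ∏ q' ∈ Finset.univ.erase q, (τ q' ^ 2 - 4)
    have hE : ∀ q, (τ q ^ 2 - 4) * E q = DD := fun q =>
      Finset.mul_prod_erase Finset.univ (fun q => τ q ^ 2 - 4) (Finset.mem_univ q)
    have hDD0 : algebraMap 𝒪 A DD ≠ 0 := by
      intro h0
      have h1 : (C DD : IhlR 𝒪 T G) ∈ 𝔔 := by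
        rw [← Ideal.Quotient.eq_zero_iff_mem]
        have := hC DD
        rw [h0] at this
        exact this
      have h3 := ihl_C_mem_prime hm 𝔔 hϖ𝔔 h1
      rw [hDD, Finset.prod_eq_zero_iff] at h3
      obtain ⟨q, _, hq⟩ := h3
      exact hD q hq
    -- the target of the tower
    haveI : IsAdicComplete (maximalIdeal (PowerSeries A)) (PowerSeries A) :=
      Fermat.Agent.S53Lib.isAdicComplete_maximalIdeal (σ := Unit)
    have hmemA' : ∀ x : PowerSeries A, x ∈ maximalIdeal (PowerSeries A) ↔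
        PowerSeries.constantCoeff x ∈ maximalIdeal A := by
      intro x
      rw [show maximalIdeal (PowerSeries A) = _ from
        Fermat.Agent.S53Lib.maximalIdeal_eq_comap_constantCoeff (σ := Unit) (R := A)]
      rfl
    set p : IhlIdx' T G → A := ihlSigVal φ with hp
    have hpm : ∀ x, p x ∈ maximalIdeal A := ihlSigVal_mem φ hφm
    let mm : T → A := fun q => p (Sum.inl (q, false, 0)) * p (Sum.inl (q, true, 0)) +
      2 * p (Sum.inl (q, false, 1)) * p (Sum.inl (q, true, 2)) +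
      2 * p (Sum.inl (q, false, 2)) * p (Sum.inl (q, true, 1))
    have hp0 : ∀ q b, p (Sum.inl (q, b, 0)) = φ (ihlX q b 0 0) - φ (ihlX q b 1 1) :=
      fun q b => rfl
    have hp1 : ∀ q b, p (Sum.inl (q, b, 1)) = φ (ihlX q b 0 1) := fun q b => rfl
    have hp2 : ∀ q b, p (Sum.inl (q, b, 2)) = φ (ihlX q b 1 0) := fun q b => rfl
    have hmm : ∀ q, mm q = (φ (ihlX q false 0 0) - φ (ihlX q false 1 1)) *
        (φ (ihlX q true 0 0) - φ (ihlX q true 1 1)) +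
        2 * φ (ihlX q false 0 1) * φ (ihlX q true 1 0) +
        2 * φ (ihlX q false 1 0) * φ (ihlX q true 0 1) := fun q => rfl
    have hCm : ∀ z : A, z ∈ maximalIdeal A →
        (PowerSeries.C z : PowerSeries A) ∈ maximalIdeal (PowerSeries A) := by
      intro z hz
      rw [hmemA', PowerSeries.constantCoeff_C]
      exact hz
    have hXCm : ∀ z : A, (PowerSeries.X * PowerSeries.C z : PowerSeries A) ∈
        maximalIdeal (PowerSeries A) := by
      intro z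
      rw [hmemA', map_mul, PowerSeries.constantCoeff_X, zero_mul]
      exact Ideal.zero_mem _
    obtain ⟨ε, hε, hεx⟩ := hUP (PowerSeries A)
      (fun q => PowerSeries.C (p (Sum.inl (q, false, 0))))
      (fun q => PowerSeries.C (p (Sum.inl (q, false, 1))))
      (fun q => PowerSeries.C (p (Sum.inl (q, false, 2))))
      (fun q => PowerSeries.X * PowerSeries.C (algebraMap 𝒪 A (E q) * mm q))
      (fun γ => PowerSeries.C (p (Sum.inr γ)))
      (fun q => ⟨hCm _ (hpm _), hCm _ (hpm _), hCm _ (hpm _), hXCm _⟩)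
      (fun γ => hCm _ (hpm _))
      (fun q => by
        rw [PowerSeries.algebraMap_apply, ← map_mul, ← map_ofNat (PowerSeries.C (R := A)) 4,
          ← map_mul, ← map_mul, ← map_add]
        congr 1
        have := (H q).quad
        rw [map_sub, map_pow, map_ofNat]
        exact this)
    -- the scaled point
    let vals : IhlIdx' T G → PowerSeries A := fun x =>
      if ihlIsPhi x = true then PowerSeries.X * PowerSeries.C (algebraMap 𝒪 A DD * p x)
      else PowerSeries.C (p x)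
    have hvals : ∀ x, vals x ∈ maximalIdeal (PowerSeries A) := by
      intro x
      show (if ihlIsPhi x = true then PowerSeries.X * PowerSeries.C (algebraMap 𝒪 A DD * p x)
        else PowerSeries.C (p x)) ∈ _
      split_ifs
      · exact hXCm _
      · exact hCm _ (hpm _)
    let pt : IhlR' 𝒪 T G →ₐ[𝒪] PowerSeries A :=
      Fermat.Agent.S53Lib.evalAdic (maximalIdeal (PowerSeries A)) vals hvals
    have hpt : ε.comp Ψ' = pt := by
      refine Fermat.Agent.S53Lib.eq_evalAdic _ _ _ _ ?_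
      rintro (⟨q, b, j⟩ | γ)
      · show ε (Ψ' (X (Sum.inl (q, b, j)))) = vals (Sum.inl (q, b, j))
        rw [hΨ']
        cases b
        · show ε (![U q, Bv q, Cv q] j) = PowerSeries.C (p (Sum.inl (q, false, j)))
          fin_cases j
          · exact (hε q).1
          · exact (hε q).2.1
          · exact (hε q).2.2.1
        · show ε (Kv q * ![U q, Bv q, Cv q] j) =
            PowerSeries.X * PowerSeries.C (algebraMap 𝒪 A DD * p (Sum.inl (q, true, j)))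
          rw [map_mul, (hε q).2.2.2]
          have hDDq : algebraMap 𝒪 A DD =
              (algebraMap 𝒪 A (τ q) ^ 2 - 4) * algebraMap 𝒪 A (E q) := by
            rw [← hE q, map_mul, map_sub, map_pow, map_ofNat]
          fin_cases j
          · show PowerSeries.X * PowerSeries.C (algebraMap 𝒪 A (E q) * mm q) * ε (U q) =
              PowerSeries.X * PowerSeries.C (algebraMap 𝒪 A DD * p (Sum.inl (q, true, 0)))
            rw [(hε q).1, mul_assoc, ← map_mul, hDDq, hmm, hp0, hp0]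
            congr 2
            linear_combination algebraMap 𝒪 A (E q) * (H q).prop_u
          · show PowerSeries.X * PowerSeries.C (algebraMap 𝒪 A (E q) * mm q) * ε (Bv q) =
              PowerSeries.X * PowerSeries.C (algebraMap 𝒪 A DD * p (Sum.inl (q, true, 1)))
            rw [(hε q).2.1, mul_assoc, ← map_mul, hDDq, hmm, hp1, hp1]
            congr 2
            linear_combination algebraMap 𝒪 A (E q) * (H q).prop_b
          · show PowerSeries.X * PowerSeries.C (algebraMap 𝒪 A (E q) * mm q) * ε (Cv q) =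
              PowerSeries.X * PowerSeries.C (algebraMap 𝒪 A DD * p (Sum.inl (q, true, 2)))
            rw [(hε q).2.2.1, mul_assoc, ← map_mul, hDDq, hmm, hp2, hp2]
            congr 2
            linear_combination algebraMap 𝒪 A (E q) * (H q).prop_c
      · show ε (Ψ' (X (Sum.inr γ))) = vals (Sum.inr γ)
        rw [hΨ']
        exact hεx γ
    have hpt0 : pt (ρ F) = 0 := by
      rw [← hpt]
      show ε (Ψ' (ρ F)) = 0
      rw [hF0, map_zero]
    have hfin := ihl_grade (fun x : IhlIdx' T G => ihlIsPhi x = true) (maximalIdeal A) p hpm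
      (algebraMap 𝒪 A DD) (fun y hy => (mul_eq_zero.mp hy).resolve_left hDD0) σ hσ pt
      (fun x => Fermat.Agent.S53Lib.evalAdic_X _ _ _ _) (ρ F) hpt0
    have : φ F = 0 := by
      rw [← hσρ]
      exact hfin
    exact Ideal.Quotient.eq_zero_iff_mem.mp this

end Fermat.Agent.Ihara
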