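import Fermat.Agent.Lib.Ihara.L.Rel
import Fermat.Agent.Lib.Ihara.L.PsStep
import Fermat.Agent.Lib.S53.PowerSeriesP

/-!
# IHARA / L, part 5: the diagonal point

`ihl_point` : an `𝒪`-algebra map `π : IhlR 𝒪 T G → 𝒪[[s]]` killing `ihlJ` with
`¬ C ϖ ∣ π (ihlT nn q₀) ^ m`.
-/

set_option autoImplicit false

open MvPowerSeries IsLocalRing

namespace Fermat.Agent.Ihara

universe u

section diag

variable {𝒪 : Type u} [CommRing 𝒪] {T G : Type} [Finite T] [Finite G]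
  {A' : Type u} [CommRing A'] [Algebra 𝒪 A'] [IsLocalRing A']
  [IsAdicComplete (maximalIdeal A') A']

/-- the values of the diagonal point -/
noncomputable def ihlDiagVal (α β γ δ : T → A') : IhlIdx T G → A'
  | Sum.inl (q, false, i, j) => if i = j then (if i = 0 then α q - 1 else β q - 1) else 0
  | Sum.inl (q, true, i, j) => if i = j then (if i = 0 then γ q - 1 else δ q - 1) else 0
  | Sum.inr _ => 0

omit [Finite T] [Finite G] [IsAdicComplete (maximalIdeal A') A'] in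
theorem ihlDiagVal_mem (α β γ δ : T → A') (hα : ∀ q, α q - 1 ∈ maximalIdeal A')
    (hβ : ∀ q, β q - 1 ∈ maximalIdeal A') (hγ : ∀ q, γ q - 1 ∈ maximalIdeal A')
    (hδ : ∀ q, δ q - 1 ∈ maximalIdeal A') (x : IhlIdx T G) :
    ihlDiagVal (G := G) α β γ δ x ∈ maximalIdeal A' := by
  rcases x with ⟨q, b, i, j⟩ | γ'
  · cases b <;> simp only [ihlDiagVal] <;> split_ifs <;>
      first | exact Ideal.zero_mem _ | exact hα q | exact hβ q | exact hγ q | exact hδ q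
  · exact Ideal.zero_mem _

/-- the diagonal point `Σ_q = diag(α_q, β_q)`, `Φ_q = diag(γ_q, δ_q)`, `x = 0` -/
theorem ihl_diag_point (τ nn : T → 𝒪) (α β γ δ : T → A')
    (hα : ∀ q, α q - 1 ∈ maximalIdeal A') (hβ : ∀ q, β q - 1 ∈ maximalIdeal A')
    (hγ : ∀ q, γ q - 1 ∈ maximalIdeal A') (hδ : ∀ q, δ q - 1 ∈ maximalIdeal A')
    (h1 : ∀ q, α q + β q = algebraMap 𝒪 A' (τ q)) (h2 : ∀ q, α q * β q = 1)
    (h3 : ∀ q, γ q * δ q = algebraMap 𝒪 A' (nn q)) :
    ∃ π : IhlR 𝒪 T G →ₐ[𝒪] A', ihlJ τ nn ≤ RingHom.ker (π : IhlR 𝒪 T G →+* A') ∧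
      ∀ q₀, π (ihlT nn q₀) = γ q₀ + δ q₀ - algebraMap 𝒪 A' (1 + nn q₀) := by
  let π : IhlR 𝒪 T G →ₐ[𝒪] A' := Fermat.Agent.S53Lib.evalAdic (maximalIdeal A')
    (ihlDiagVal α β γ δ) (ihlDiagVal_mem α β γ δ hα hβ hγ hδ)
  have hπ : ∀ q b i j, π (ihlX q b i j) = ihlDiagVal (G := G) α β γ δ (Sum.inl (q, b, i, j)) :=
    fun q b i j => Fermat.Agent.S53Lib.evalAdic_X _ _ _ _
  have hC : ∀ x : 𝒪, π (C x) = algebraMap 𝒪 A' x := by
    intro x
    have : (C x : IhlR 𝒪 T G) = algebraMap 𝒪 (IhlR 𝒪 T G) x := by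
      rw [MvPowerSeries.c_eq_algebraMap]
    rw [this, AlgHom.commutes]
  refine ⟨π, ?_, ?_⟩
  · rw [ihl_J_le_ker_iff]
    intro q
    simp only [AlgHom.coe_toRingHom, hπ, hC, ihlDiagVal]
    refine ⟨?_, ?_, ?_, ?_, ?_, ?_⟩
    · simp
      linear_combination h1 q
    · simp
      linear_combination h2 q
    · simp
      linear_combination h3 q
    · simp
    · simp
    · simp
  · intro q₀
    have := ihl_map_trace (π : IhlR 𝒪 T G →+* A') q₀ true
    simp only [AlgHom.coe_toRingHom, hπ, ihlDiagVal] at this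
    rw [ihlT, map_sub, hC, ihlPhi, this]
    simp

end diag

section point

variable {𝒪 : Type u} [CommRing 𝒪] [IsDomain 𝒪] [IsLocalRing 𝒪]
  [IsAdicComplete (maximalIdeal 𝒪) 𝒪] {T G : Type} [Finite T] [Finite G]

/-- **the point**: `Σ_q = diag(ζ_q, ζ_q⁻¹)`, `Φ_{q₀} = diag(1+s, nn/(1+s))`, `Φ_q = diag(1, nn_q)` -/
theorem ihl_point {ϖ : 𝒪} (hϖ : Prime ϖ) (ζ : T → 𝒪ˣ) (hζ1 : ∀ q, (ζ q : 𝒪) - 1 ∈ maximalIdeal 𝒪)
    (nn : T → 𝒪) (hnn : ∀ q, nn q - 1 ∈ maximalIdeal 𝒪)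
    (q₀ : T) :
    ∃ π : IhlR 𝒪 T G →ₐ[𝒪] PowerSeries 𝒪,
      ihlJ (fun q => (ζ q : 𝒪) + ((ζ q)⁻¹ : 𝒪ˣ)) nn ≤
        RingHom.ker (π : IhlR 𝒪 T G →+* PowerSeries 𝒪) ∧
      ∀ m : ℕ, ¬ (PowerSeries.C ϖ : PowerSeries 𝒪) ∣ π (ihlT nn q₀) ^ m := by
  classical
  have : IsAdicComplete (maximalIdeal (PowerSeries 𝒪)) (PowerSeries 𝒪) :=
    Fermat.Agent.S53Lib.isAdicComplete_maximalIdeal (σ := Unit)
  have hmem : ∀ x : PowerSeries 𝒪, x ∈ maximalIdeal (PowerSeries 𝒪) ↔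
      PowerSeries.constantCoeff x ∈ maximalIdeal 𝒪 := by
    intro x
    rw [show maximalIdeal (PowerSeries 𝒪) = _ from
      Fermat.Agent.S53Lib.maximalIdeal_eq_comap_constantCoeff (σ := Unit) (R := 𝒪)]
    rfl
  -- the inverse of `1 + s`
  have hu : IsUnit (1 + PowerSeries.X : PowerSeries 𝒪) := by
    rw [PowerSeries.isUnit_iff_constantCoeff]
    simp
  obtain ⟨w, hw⟩ := hu.exists_right_inv
  have hw0 : PowerSeries.constantCoeff w = 1 := by
    have := congrArg PowerSeries.constantCoeff hw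
    simpa using this
  obtain ⟨π, hπJ, hπt⟩ := ihl_diag_point (G := G) (A' := PowerSeries 𝒪)
    (fun q => (ζ q : 𝒪) + ((ζ q)⁻¹ : 𝒪ˣ)) nn
    (fun q => PowerSeries.C (ζ q : 𝒪)) (fun q => PowerSeries.C (((ζ q)⁻¹ : 𝒪ˣ) : 𝒪))
    (fun q => if q = q₀ then 1 + PowerSeries.X else 1)
    (fun q => if q = q₀ then PowerSeries.C (nn q) * w else PowerSeries.C (nn q))
    (fun q => by rw [hmem]; simpa using hζ1 q)
    (fun q => by
      rw [hmem]
      have : (((ζ q)⁻¹ : 𝒪ˣ) : 𝒪) - 1 = -(((ζ q)⁻¹ : 𝒪ˣ) : 𝒪) * ((ζ q : 𝒪) - 1) := by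
        have := (ζ q).inv_mul
        linear_combination this
      simp only [map_sub, PowerSeries.constantCoeff_C, map_one]
      rw [this]
      exact Ideal.mul_mem_left _ _ (hζ1 q))
    (fun q => by
      rw [hmem]
      split_ifs <;> simp)
    (fun q => by
      rw [hmem]
      split_ifs
      · simpa [hw0] using hnn q
      · simpa using hnn q)
    (fun q => by
      rw [← map_add]
      rfl)
    (fun q => by
      rw [← map_mul, Units.mul_inv, map_one])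
    (fun q => by
      split_ifs
      · have : algebraMap 𝒪 (PowerSeries 𝒪) (nn q) = PowerSeries.C (nn q) := rfl
        rw [this]
        linear_combination PowerSeries.C (nn q) * hw
      · rw [one_mul]
        rfl)
  refine ⟨π, hπJ, fun m hdvd => ?_⟩
  have hprime : Prime (PowerSeries.C ϖ : PowerSeries 𝒪) := ihl_ps_prime (σ := Unit) hϖ
  have h1 : (PowerSeries.C ϖ : PowerSeries 𝒪) ∣ π (ihlT nn q₀) := hprime.dvd_of_dvd_pow hdvd
  rw [hπt q₀] at h1
  simp only [if_true] at h1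
  -- multiply by `1 + s`
  have h2 : (PowerSeries.C ϖ : PowerSeries 𝒪) ∣
      PowerSeries.X ^ 2 + PowerSeries.C (1 - nn q₀) * PowerSeries.X := by
    have e : PowerSeries.X ^ 2 + PowerSeries.C (1 - nn q₀) * PowerSeries.X =
        (1 + PowerSeries.X + PowerSeries.C (nn q₀) * w - algebraMap 𝒪 (PowerSeries 𝒪) (1 + nn q₀))
          * (1 + PowerSeries.X) := by
      have : algebraMap 𝒪 (PowerSeries 𝒪) (1 + nn q₀) = 1 + PowerSeries.C (nn q₀) := by
        rw [map_add, map_one]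
        rfl
      rw [this, map_sub, map_one]
      linear_combination (-PowerSeries.C (nn q₀)) * hw
    rw [e]
    exact Dvd.dvd.mul_right h1 _
  have h3 := (ihl_ps_C_dvd_iff (σ := Unit) ϖ _).mp h2 (Finsupp.single () 2)
  have h4 : MvPowerSeries.coeff (Finsupp.single () 2)
      (PowerSeries.X ^ 2 + PowerSeries.C (1 - nn q₀) * PowerSeries.X : PowerSeries 𝒪) = 1 := by
    show PowerSeries.coeff 2 _ = 1
    rw [map_add, PowerSeries.coeff_X_pow_self, show (2 : ℕ) = 1 + 1 from rfl,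
      PowerSeries.coeff_succ_mul_X, PowerSeries.coeff_C]
    simp
  rw [h4] at h3
  exact hϖ.not_isUnit (isUnit_of_dvd_one h3)

end point

end Fermat.Agent.Ihara
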