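import Fermat.Agent.Lib.Ihara.L.Gen
import Fermat.Agent.Lib.Ihara.L.Dim
import Fermat.Agent.Lib.Ihara.L.Point

/-!
# IHARA / L (helper6): the local input `hL` of the master theorem `ihp_master_matrix`

For a finite family `T` of C-primes with type-`χ` data `ζ_q` (`ζ_q ≡ 1`, `ζ_q² ≠ 1`) and
`nn_q ≡ 1` (the prime `q` as an element of `𝒪`): in the free power series ring
`R = 𝒪[[X_{q,b,i,j}, x_γ]]` every prime `𝔔 ⊇ ihlJ` not containing `ϖ` and of dimension at least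
`1 + 3|T| + |G|` is THE generic component, and `t = tr Φ_{q₀} - (1 + q₀)` is not nilpotent modulo
`𝔔 + (ϖ)`.
-/

set_option autoImplicit false

open MvPowerSeries IsLocalRing

namespace Fermat.Agent.Ihara

/-- **[L]: the local input of the master theorem**. -/
theorem ihl_main {𝒪 : Type*} [CommRing 𝒪] [IsDomain 𝒪] [IsLocalRing 𝒪] [IsNoetherianRing 𝒪]
    [IsAdicComplete (maximalIdeal 𝒪) 𝒪] (ϖ : 𝒪) (hϖ : maximalIdeal 𝒪 = Ideal.span {ϖ})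
    (hϖ0 : ϖ ≠ 0) (h2 : IsUnit (2 : 𝒪)) {T G : Type} [Finite T] [Finite G]
    (ζ : T → 𝒪ˣ) (hζ1 : ∀ q, (ζ q : 𝒪) - 1 ∈ maximalIdeal 𝒪) (hζ2 : ∀ q, (ζ q : 𝒪) ^ 2 ≠ 1)
    (nn : T → 𝒪) (hnn : ∀ q, nn q - 1 ∈ maximalIdeal 𝒪) (q₀ : T)
    (𝔔 : Ideal (IhlR 𝒪 T G)) (h𝔔 : 𝔔.IsPrime)
    (hJ : ihlJ (fun q => (ζ q : 𝒪) + ((ζ q)⁻¹ : 𝒪ˣ)) nn ≤ 𝔔)
    (hϖ𝔔 : (C ϖ : IhlR 𝒪 T G) ∉ 𝔔)
    (hdim : ((1 + 3 * Nat.card T + Nat.card G : ℕ) : WithBot ℕ∞) ≤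
      ringKrullDim (IhlR 𝒪 T G ⧸ 𝔔)) (m : ℕ) :
    ihlT nn q₀ ^ m ∉ 𝔔 ⊔ Ideal.span {(C ϖ : IhlR 𝒪 T G)} := by
  have hprime : Prime ϖ := by
    have : (Ideal.span {ϖ}).IsPrime := hϖ ▸ (maximalIdeal.isMaximal 𝒪).isPrime
    exact (Ideal.span_singleton_prime hϖ0).mp this
  set τ : T → 𝒪 := fun q => (ζ q : 𝒪) + ((ζ q)⁻¹ : 𝒪ˣ) with hτdef
  have hinv : ∀ q, (((ζ q)⁻¹ : 𝒪ˣ) : 𝒪) * (ζ q : 𝒪) = 1 := fun q => (ζ q).inv_mul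
  have hτ : ∀ q, τ q - 2 ∈ maximalIdeal 𝒪 := by
    intro q
    have e : τ q - 2 = (((ζ q)⁻¹ : 𝒪ˣ) : 𝒪) * ((ζ q : 𝒪) - 1) * ((ζ q : 𝒪) - 1) := by
      show (ζ q : 𝒪) + ((ζ q)⁻¹ : 𝒪ˣ) - 2 = _
      linear_combination (2 - (ζ q : 𝒪)) * hinv q
    rw [e]
    exact Ideal.mul_mem_left _ _ (hζ1 q)
  have hD : ∀ q, τ q ^ 2 - 4 ≠ 0 := by
    intro q h0
    have e : τ q ^ 2 - 4 = ((((ζ q)⁻¹ : 𝒪ˣ) : 𝒪) * ((ζ q : 𝒪) ^ 2 - 1)) ^ 2 := by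
      show ((ζ q : 𝒪) + ((ζ q)⁻¹ : 𝒪ˣ)) ^ 2 - 4 = _
      linear_combination (-(((ζ q)⁻¹ : 𝒪ˣ) : 𝒪) * (ζ q : 𝒪) ^ 3 - (ζ q : 𝒪) ^ 2 +
        2 * (((ζ q)⁻¹ : 𝒪ˣ) : 𝒪) * (ζ q : 𝒪) + 4) * hinv q
    rw [e] at h0
    have h1 := pow_eq_zero_iff (two_ne_zero) |>.mp h0
    rcases mul_eq_zero.mp h1 with h3 | h3
    · exact (ζ q)⁻¹.ne_zero h3
    · exact hζ2 q (sub_eq_zero.mp h3)
  obtain ⟨𝔭, h𝔭, hJ𝔭, hG⟩ := ihl_generic (G := G) hprime hϖ h2 τ nn hτ hnn hD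
  have hle : 𝔭 ≤ 𝔔 := hG 𝔔 h𝔔 hJ hϖ𝔔
  have hdim𝔭 := ihl_dim_le ϖ hϖ h2 τ nn hτ hnn 𝔭 h𝔭.ne_top hJ𝔭
  have heq : 𝔭 = 𝔔 := ihl_prime_eq hle _ hdim𝔭 hdim
  obtain ⟨π, hπJ, hπt⟩ := ihl_point (G := G) hprime ζ hζ1 nn hnn q₀
  have hC : ∀ z : 𝒪, π (C z) = PowerSeries.C z := by
    intro z
    have : (C z : IhlR 𝒪 T G) = algebraMap 𝒪 (IhlR 𝒪 T G) z := by
      rw [MvPowerSeries.c_eq_algebraMap]
    rw [this, AlgHom.commutes]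
    rfl
  have hker : 𝔭 ≤ RingHom.ker (π : IhlR 𝒪 T G →+* PowerSeries 𝒪) := by
    refine hG _ (RingHom.ker_isPrime _) hπJ ?_
    rw [RingHom.mem_ker]
    show π (C ϖ) ≠ 0
    rw [hC]
    intro h0
    have := congrArg PowerSeries.constantCoeff h0
    rw [PowerSeries.constantCoeff_C, map_zero] at this
    exact hϖ0 this
  intro hmem
  rw [← heq] at hmem
  obtain ⟨y, hy, z, hz, hyz⟩ := Submodule.mem_sup.mp hmem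
  obtain ⟨w, rfl⟩ := Ideal.mem_span_singleton'.mp hz
  refine hπt m ?_
  have hy0 : π y = 0 := hker hy
  rw [← map_pow, ← hyz, map_add, hy0, zero_add, map_mul, hC]
  exact Dvd.intro_left _ rfl

end Fermat.Agent.Ihara
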