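import Fermat.Agent.Lib.Ihara.L.Main

/-!
# IHARA / L, part 11: the product form of the type-`χ` ideal

In the application the Hecke side only gives the relation
`∏_{ζ ∈ μ_q} (tr Σ_q - ζ - ζ⁻¹) = 0` at each C-prime `q` (`μ_q` a finite set of admissible `ζ`:
the nontrivial `p`-power roots of unity).  A prime containing this product contains one factor
for each `q`, so `ihl_main` applies verbatim: `ihl_main_prod`.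
-/

set_option autoImplicit false

open MvPowerSeries IsLocalRing

namespace Fermat.Agent.Ihara

section

variable {𝒪 : Type*} [CommRing 𝒪] {T G : Type*}

/-- the generators of the product form of the type-`χ` ideal -/
noncomputable def ihlJProdGen (μ : T → Finset 𝒪ˣ) (nn : T → 𝒪) : Set (IhlR 𝒪 T G) :=
  (Set.range fun q : T => ∏ ζ ∈ μ q, ((ihlSigma q : Matrix (Fin 2) (Fin 2) (IhlR 𝒪 T G)).trace -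
    C ((ζ : 𝒪) + ((ζ⁻¹ : 𝒪ˣ) : 𝒪)))) ∪
  (Set.range fun q : T => (ihlSigma q).det - 1) ∪
  (Set.range fun q : T => (ihlPhi q).det - C (nn q)) ∪
  (Set.range fun x : T × Fin 2 × Fin 2 =>
    ((ihlPhi x.1 * ihlSigma x.1 - ihlSigma x.1 * ihlPhi x.1 :
      Matrix (Fin 2) (Fin 2) (IhlR 𝒪 T G)) x.2.1 x.2.2))

/-- the product form of the type-`χ` ideal: `∏_{ζ ∈ μ_q} (tr Σ_q - ζ - ζ⁻¹)`, `det Σ_q - 1`,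
`det Φ_q - nn_q`, `Φ_q Σ_q - Σ_q Φ_q` -/
noncomputable def ihlJProd (μ : T → Finset 𝒪ˣ) (nn : T → 𝒪) : Ideal (IhlR 𝒪 T G) :=
  Ideal.span (ihlJProdGen μ nn)

/-- a prime containing the product form contains `ihlJ` for some choice of `ζ_q ∈ μ_q` -/
theorem ihl_exists_choice (μ : T → Finset 𝒪ˣ) (nn : T → 𝒪) (𝔔 : Ideal (IhlR 𝒪 T G))
    [h𝔔 : 𝔔.IsPrime] (hJ : ihlJProd μ nn ≤ 𝔔) :
    ∃ ζ : T → 𝒪ˣ, (∀ q, ζ q ∈ μ q) ∧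
      ihlJ (fun q => (ζ q : 𝒪) + ((ζ q)⁻¹ : 𝒪ˣ)) nn ≤ 𝔔 := by
  have hgen : ∀ x ∈ ihlJProdGen (G := G) μ nn, x ∈ 𝔔 := fun x hx => hJ (Ideal.subset_span hx)
  have h1 : ∀ q : T, ∃ ζ ∈ μ q, ((ihlSigma q : Matrix (Fin 2) (Fin 2) (IhlR 𝒪 T G)).trace -
      C ((ζ : 𝒪) + ((ζ⁻¹ : 𝒪ˣ) : 𝒪))) ∈ 𝔔 := by
    intro q
    have := hgen _ (Or.inl (Or.inl (Or.inl ⟨q, rfl⟩)))
    exact Ideal.IsPrime.prod_mem_iff.mp this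
  choose ζ hζμ hζ using h1
  refine ⟨ζ, hζμ, ?_⟩
  rw [ihlJ, Ideal.span_le]
  rintro x (((⟨q, rfl⟩ | ⟨q, rfl⟩) | ⟨q, rfl⟩) | ⟨y, rfl⟩)
  · exact hζ q
  · exact hgen _ (Or.inl (Or.inl (Or.inr ⟨q, rfl⟩)))
  · exact hgen _ (Or.inl (Or.inr ⟨q, rfl⟩))
  · exact hgen _ (Or.inr ⟨y, rfl⟩)

end

/-- **[L], product form**: the local input `hL` of `ihp_master_matrix` for the ideal
`ihlJProd μ nn`. -/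
theorem ihl_main_prod {𝒪 : Type*} [CommRing 𝒪] [IsDomain 𝒪] [IsLocalRing 𝒪] [IsNoetherianRing 𝒪]
    [IsAdicComplete (maximalIdeal 𝒪) 𝒪] (ϖ : 𝒪) (hϖ : maximalIdeal 𝒪 = Ideal.span {ϖ})
    (hϖ0 : ϖ ≠ 0) (h2 : IsUnit (2 : 𝒪)) {T G : Type} [Finite T] [Finite G]
    (μ : T → Finset 𝒪ˣ) (hμ1 : ∀ q, ∀ ζ ∈ μ q, (ζ : 𝒪) - 1 ∈ maximalIdeal 𝒪)
    (hμ2 : ∀ q, ∀ ζ ∈ μ q, (ζ : 𝒪) ^ 2 ≠ 1)
    (nn : T → 𝒪) (hnn : ∀ q, nn q - 1 ∈ maximalIdeal 𝒪) (q₀ : T)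
    (𝔔 : Ideal (IhlR 𝒪 T G)) (h𝔔 : 𝔔.IsPrime)
    (hJ : ihlJProd μ nn ≤ 𝔔) (hϖ𝔔 : (C ϖ : IhlR 𝒪 T G) ∉ 𝔔)
    (hdim : ((1 + 3 * Nat.card T + Nat.card G : ℕ) : WithBot ℕ∞) ≤
      ringKrullDim (IhlR 𝒪 T G ⧸ 𝔔)) (m : ℕ) :
    ihlT nn q₀ ^ m ∉ 𝔔 ⊔ Ideal.span {(C ϖ : IhlR 𝒪 T G)} := by
  obtain ⟨ζ, hζμ, hζJ⟩ := ihl_exists_choice μ nn 𝔔 hJ
  exact ihl_main ϖ hϖ hϖ0 h2 ζ (fun q => hμ1 q _ (hζμ q)) (fun q => hμ2 q _ (hζμ q)) nn hnn q₀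
    𝔔 h𝔔 hζJ hϖ𝔔 hdim m

/-- the same with the dimension hypothesis in the form used by `ihp_master_matrix`:
`S` any ring with `1 + 3|T| + |G| ≤ dim S` -/
theorem ihl_hL {𝒪 : Type*} [CommRing 𝒪] [IsDomain 𝒪] [IsLocalRing 𝒪] [IsNoetherianRing 𝒪]
    [IsAdicComplete (maximalIdeal 𝒪) 𝒪] (ϖ : 𝒪) (hϖ : maximalIdeal 𝒪 = Ideal.span {ϖ})
    (hϖ0 : ϖ ≠ 0) (h2 : IsUnit (2 : 𝒪)) {T G : Type} [Finite T] [Finite G]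
    (μ : T → Finset 𝒪ˣ) (hμ1 : ∀ q, ∀ ζ ∈ μ q, (ζ : 𝒪) - 1 ∈ maximalIdeal 𝒪)
    (hμ2 : ∀ q, ∀ ζ ∈ μ q, (ζ : 𝒪) ^ 2 ≠ 1)
    (nn : T → 𝒪) (hnn : ∀ q, nn q - 1 ∈ maximalIdeal 𝒪) (q₀ : T)
    {S : Type*} [CommRing S]
    (hS : ((1 + 3 * Nat.card T + Nat.card G : ℕ) : WithBot ℕ∞) ≤ ringKrullDim S) :
    ∀ 𝔔 : Ideal (IhlR 𝒪 T G), 𝔔.IsPrime → ihlJProd μ nn ≤ 𝔔 → (C ϖ : IhlR 𝒪 T G) ∉ 𝔔 →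
      ringKrullDim S ≤ ringKrullDim (IhlR 𝒪 T G ⧸ 𝔔) →
      ∀ m, ihlT nn q₀ ^ m ∉ 𝔔 ⊔ Ideal.span {(C ϖ : IhlR 𝒪 T G)} :=
  fun 𝔔 h𝔔 hJ hϖ𝔔 hdim m =>
    ihl_main_prod ϖ hϖ hϖ0 h2 μ hμ1 hμ2 nn hnn q₀ 𝔔 h𝔔 hJ hϖ𝔔 (hS.trans hdim) m

end Fermat.Agent.Ihara
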