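import Mathlib
import Fermat.Prelude.Thm_IsLocalRing_isAdicComplete_of_module_finite

/-!
# IHARA / L, part 1: quadratic extensions `B[u]/(u² - E)`

For a domain `B` with a prime element `ϖ` (`ϖ`-adically separated) and `E : B` such that
`ϖ ∣ x² - E y² → ϖ ∣ x ∧ ϖ ∣ y` (i.e. `E` is not a square modulo `ϖ`, even in the fraction field),
the quadratic algebra `QuadraticAlgebra B E 0 = B[u]/(u² - E)` is again a domain in which `ϖ` is
prime.  If `B` is local (Noetherian, complete) and `E ∈ 𝔪`, so is the quadratic algebra.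
-/

set_option autoImplicit false
set_option linter.unusedSectionVars false
set_option linter.style.haveILetI false

open IsLocalRing

namespace Fermat.Agent.Ihara

section dom

variable {B : Type*} [CommRing B] [IsDomain B] (E : B) (ϖ : B)

omit [IsDomain B] in
theorem ihl_quad_norm_def (z : QuadraticAlgebra B E 0) :
    z.norm = z.re * z.re - E * z.im * z.im := by
  rw [QuadraticAlgebra.norm_def]
  ring

/-- the norm form `x² - E y²` is anisotropic -/
theorem ihl_quad_aniso (hϖ0 : ϖ ≠ 0) (hsep : ∀ x : B, (∀ n : ℕ, ϖ ^ n ∣ x) → x = 0)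
    (hH : ∀ x y : B, ϖ ∣ x * x - E * y * y → ϖ ∣ x ∧ ϖ ∣ y) (x y : B)
    (h : x * x - E * y * y = 0) : x = 0 ∧ y = 0 := by
  have key : ∀ n : ℕ, ∀ x y : B, x * x - E * y * y = 0 → ϖ ^ n ∣ x ∧ ϖ ^ n ∣ y := by
    intro n
    induction n with
    | zero => intro x y _; simp
    | succ n ih =>
      intro x y h
      obtain ⟨⟨x', rfl⟩, ⟨y', rfl⟩⟩ := hH x y (h ▸ dvd_zero ϖ)
      have h' : x' * x' - E * y' * y' = 0 := by
        have : ϖ * ϖ * (x' * x' - E * y' * y') = 0 := by linear_combination h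
        exact (mul_eq_zero.mp this).resolve_left (mul_ne_zero hϖ0 hϖ0)
      obtain ⟨hx, hy⟩ := ih x' y' h'
      rw [pow_succ']
      exact ⟨mul_dvd_mul_left _ hx, mul_dvd_mul_left _ hy⟩
  exact ⟨hsep x fun n => (key n x y h).1, hsep y fun n => (key n x y h).2⟩

theorem ihl_quad_norm_eq_zero (hϖ0 : ϖ ≠ 0) (hsep : ∀ x : B, (∀ n : ℕ, ϖ ^ n ∣ x) → x = 0)
    (hH : ∀ x y : B, ϖ ∣ x * x - E * y * y → ϖ ∣ x ∧ ϖ ∣ y) (z : QuadraticAlgebra B E 0)
    (hz : z.norm = 0) : z = 0 := by
  rw [ihl_quad_norm_def] at hz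
  obtain ⟨h1, h2⟩ := ihl_quad_aniso E ϖ hϖ0 hsep hH z.re z.im hz
  ext
  · exact h1
  · exact h2

/-- `B[u]/(u² - E)` is a domain -/
theorem ihl_quad_isDomain (hϖ0 : ϖ ≠ 0) (hsep : ∀ x : B, (∀ n : ℕ, ϖ ^ n ∣ x) → x = 0)
    (hH : ∀ x y : B, ϖ ∣ x * x - E * y * y → ϖ ∣ x ∧ ϖ ∣ y) :
    IsDomain (QuadraticAlgebra B E 0) := by
  haveI : NoZeroDivisors (QuadraticAlgebra B E 0) := by
    refine ⟨fun {z w} h => ?_⟩
    have h1 : z.norm * w.norm = 0 := by rw [← map_mul, h, QuadraticAlgebra.norm_zero]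
    rcases mul_eq_zero.mp h1 with h2 | h2
    · exact Or.inl (ihl_quad_norm_eq_zero E ϖ hϖ0 hsep hH z h2)
    · exact Or.inr (ihl_quad_norm_eq_zero E ϖ hϖ0 hsep hH w h2)
  exact NoZeroDivisors.to_isDomain _

/-- `ϖ` stays prime in `B[u]/(u² - E)` -/
theorem ihl_quad_prime (hϖ : Prime ϖ)
    (hH : ∀ x y : B, ϖ ∣ x * x - E * y * y → ϖ ∣ x ∧ ϖ ∣ y) :
    Prime (algebraMap B (QuadraticAlgebra B E 0) ϖ) := by
  refine ⟨?_, ?_, ?_⟩
  · intro h
    exact hϖ.ne_zero (QuadraticAlgebra.algebraMap_injective (by rw [h, map_zero]))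
  · intro h
    have := h.map (QuadraticAlgebra.norm (R := B) (a := E) (b := 0))
    rw [QuadraticAlgebra.norm_algebraMap] at this
    exact hϖ.not_isUnit (isUnit_of_mul_isUnit_left (by rwa [pow_two] at this))
  · intro z w h
    obtain ⟨t, ht⟩ := h
    have h1 : z.norm * w.norm = ϖ * (ϖ * t.norm) := by
      rw [← map_mul, ht, map_mul, QuadraticAlgebra.norm_algebraMap]
      ring
    have h2 : ϖ ∣ z.norm * w.norm := ⟨_, h1⟩
    rcases hϖ.dvd_or_dvd h2 with h3 | h3
    · left
      rw [ihl_quad_norm_def] at h3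
      exact QuadraticAlgebra.algebraMap_dvd_iff.mpr (hH _ _ h3)
    · right
      rw [ihl_quad_norm_def] at h3
      exact QuadraticAlgebra.algebraMap_dvd_iff.mpr (hH _ _ h3)

end dom

section loc

variable {B : Type*} [CommRing B] [IsLocalRing B] (E : B)

theorem ihl_quad_isUnit_iff (hE : E ∈ maximalIdeal B) (z : QuadraticAlgebra B E 0) :
    IsUnit z ↔ IsUnit z.re := by
  rw [QuadraticAlgebra.isUnit_iff_norm_isUnit, QuadraticAlgebra.norm_def]
  have hm : (0 : B) * z.re * z.im - E * z.im * z.im ∈ maximalIdeal B := by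
    have : (0 : B) * z.re * z.im - E * z.im * z.im = E * (-(z.im * z.im)) := by ring
    rw [this]
    exact Ideal.mul_mem_right _ _ hE
  constructor
  · intro h
    by_contra hre
    have h1 : z.re ∈ maximalIdeal B := hre
    have h2 : z.re * z.re + 0 * z.re * z.im - E * z.im * z.im ∈ maximalIdeal B := by
      have : z.re * z.re + 0 * z.re * z.im - E * z.im * z.im =
          z.re * z.re + ((0 : B) * z.re * z.im - E * z.im * z.im) := by ring
      rw [this]
      exact Ideal.add_mem _ (Ideal.mul_mem_left _ _ h1) hm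
    exact h2 h
  · intro h
    by_contra hn
    have h1 : z.re * z.re + 0 * z.re * z.im - E * z.im * z.im ∈ maximalIdeal B := hn
    have h2 : z.re * z.re ∈ maximalIdeal B := by
      have : z.re * z.re = (z.re * z.re + 0 * z.re * z.im - E * z.im * z.im) -
          ((0 : B) * z.re * z.im - E * z.im * z.im) := by ring
      rw [this]
      exact Ideal.sub_mem _ h1 hm
    exact h2 (h.mul h)

theorem ihl_quad_isLocalRing (hE : E ∈ maximalIdeal B) :
    IsLocalRing (QuadraticAlgebra B E 0) := by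
  refine IsLocalRing.of_nonunits_add fun z w hz hw => ?_
  rw [mem_nonunits_iff, ihl_quad_isUnit_iff E hE] at hz hw ⊢
  have h1 : z.re ∈ maximalIdeal B := hz
  have h2 : w.re ∈ maximalIdeal B := hw
  exact Ideal.add_mem _ h1 h2

theorem ihl_quad_isLocalHom (hE : E ∈ maximalIdeal B) :
    IsLocalHom (algebraMap B (QuadraticAlgebra B E 0)) := by
  refine ⟨fun x hx => ?_⟩
  rw [ihl_quad_isUnit_iff E hE] at hx
  exact hx

theorem ihl_quad_mem_maximalIdeal_iff (hE : E ∈ maximalIdeal B)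
    [IsLocalRing (QuadraticAlgebra B E 0)] (z : QuadraticAlgebra B E 0) :
    z ∈ maximalIdeal (QuadraticAlgebra B E 0) ↔ z.re ∈ maximalIdeal B := by
  rw [mem_maximalIdeal, mem_maximalIdeal, mem_nonunits_iff, mem_nonunits_iff,
    ihl_quad_isUnit_iff E hE]

theorem ihl_quad_omega_mem (hE : E ∈ maximalIdeal B) [IsLocalRing (QuadraticAlgebra B E 0)] :
    (QuadraticAlgebra.omega : QuadraticAlgebra B E 0) ∈
      maximalIdeal (QuadraticAlgebra B E 0) := by
  rw [ihl_quad_mem_maximalIdeal_iff E hE, QuadraticAlgebra.omega_re]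
  exact Ideal.zero_mem _

omit [IsLocalRing B] in
theorem ihl_quad_omega_sq : (QuadraticAlgebra.omega : QuadraticAlgebra B E 0) *
    QuadraticAlgebra.omega = algebraMap B _ E := by
  rw [QuadraticAlgebra.omega_mul_omega_eq_algebraMap, map_zero, zero_mul, add_zero]

omit [IsLocalRing B] in
theorem ihl_quad_isNoetherianRing [IsNoetherianRing B] :
    IsNoetherianRing (QuadraticAlgebra B E 0) :=
  Algebra.FiniteType.isNoetherianRing B _

theorem ihl_quad_isAdicComplete [IsNoetherianRing B] [IsAdicComplete (maximalIdeal B) B]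
    (hE : E ∈ maximalIdeal B) [IsLocalRing (QuadraticAlgebra B E 0)] :
    IsAdicComplete (maximalIdeal (QuadraticAlgebra B E 0)) (QuadraticAlgebra B E 0) := by
  haveI := ihl_quad_isLocalHom E hE
  exact IsLocalRing.isAdicComplete_of_module_finite (𝒪 := B)

end loc

end Fermat.Agent.Ihara
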