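import Fermat.Agent.Lib.Ihara.L.Rel
import Fermat.Agent.Lib.S53.PowerSeriesP

/-!
# IHARA / L, part 8: the reduction `ρ : IhlR → IhlR'`

`IhlR' 𝒪 T G = 𝒪[[N_q, Φ₀_q, x_γ]]` with `N_q = (u,b,c)_q` and `Φ₀_q = (v,f,g)_q`.  The map `ρ`
substitutes `a = ((τ-2)+u)/2`, `d = ((τ-2)-u)/2`, `e = (ω+v)/2`, `h = (ω-v)/2` where `ω ∈ 𝔪` is the
Hensel root of `ω² + 4ω = 4(nn-1) + v² + 4fg`.

* `IhlRel.of_param` : the relations hold at a parametrised point;
* `ihl_sigma_rho` : a point of `ihlJ` factors through `ρ`.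
-/

set_option autoImplicit false

open MvPowerSeries IsLocalRing

namespace Fermat.Agent.Ihara

/-! ### the Hensel root -/

theorem ihl_isUnit_four {B : Type*} [CommRing B] (h2 : IsUnit (2 : B)) : IsUnit (4 : B) := by
  have := h2.mul h2
  norm_num at this
  exact this

theorem ihl_hensel_root {B : Type*} [CommRing B] [IsLocalRing B]
    [IsAdicComplete (maximalIdeal B) B] (h2 : IsUnit (2 : B)) (y : B)
    (hy : y ∈ maximalIdeal B) : ∃ w ∈ maximalIdeal B, w * w + 4 * w = y := by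
  have hmon : (Polynomial.X ^ 2 + (Polynomial.C (4 : B) * Polynomial.X - Polynomial.C y) :
      Polynomial B).Monic := by
    refine Polynomial.monic_X_pow_add ?_
    refine lt_of_le_of_lt (Polynomial.degree_sub_le _ _) ?_
    refine max_lt ?_ ?_
    · exact lt_of_le_of_lt (Polynomial.degree_C_mul_X_le _) (by norm_num)
    · exact lt_of_le_of_lt Polynomial.degree_C_le (by norm_num)
  obtain ⟨a, ha, ha'⟩ := HenselianRing.is_henselian (I := maximalIdeal B)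
    (Polynomial.X ^ 2 + (Polynomial.C (4 : B) * Polynomial.X - Polynomial.C y) : Polynomial B)
    hmon 0
    (by simp; exact hy)
    (by
      refine IsUnit.map _ ?_
      simp
      exact ihl_isUnit_four h2)
  refine ⟨a, by simpa using ha', ?_⟩
  rw [Polynomial.IsRoot.def] at ha
  simp at ha
  linear_combination ha

theorem ihl_root_unique {B : Type*} [CommRing B] [IsLocalRing B] (h2 : IsUnit (2 : B))
    {w₁ w₂ : B} (h₁ : w₁ ∈ maximalIdeal B) (h₂ : w₂ ∈ maximalIdeal B)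
    (h : w₁ * w₁ + 4 * w₁ = w₂ * w₂ + 4 * w₂) : w₁ = w₂ := by
  have h4 := ihl_isUnit_four h2
  have hu : IsUnit (w₁ + w₂ + 4) := by
    by_contra hn
    have h5 : w₁ + w₂ + 4 ∈ maximalIdeal B := hn
    have h6 : (4 : B) ∈ maximalIdeal B := by
      have := Ideal.sub_mem _ h5 (Ideal.add_mem _ h₁ h₂)
      rwa [add_sub_cancel_left] at this
    exact h6 h4
  have h7 : (w₁ + w₂ + 4) * (w₁ - w₂) = 0 := by linear_combination h
  have := hu.mul_left_cancel (h7.trans (mul_zero _).symm)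
  exact sub_eq_zero.mp this

/-! ### the relations at a parametrised point -/

theorem IhlRel.of_param {A : Type*} [CommRing A] {τ nn a b c d e f g h K w : A}
    (h2 : IsUnit (2 : A)) (h1 : a + d = τ - 2)
    (hq : (a - d) * (a - d) + 4 * b * c = τ ^ 2 - 4)
    (h3 : e + h = w) (hv : e - h = K * (a - d)) (hf : f = K * b) (hg : g = K * c)
    (hw : w * w + 4 * w = 4 * (nn - 1) + ((e - h) * (e - h) + 4 * f * g)) :
    IhlRel τ nn a b c d e f g h := by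
  have h4 := ihl_isUnit_four h2
  refine ⟨h1, ?_, ?_, ?_, ?_, ?_⟩
  · refine h4.mul_left_cancel ?_
    linear_combination (4 + (a + d) + (τ - 2)) * h1 - hq
  · refine h4.mul_left_cancel ?_
    linear_combination (e + h + w + 4) * h3 + hw
  · rw [hf, hg]
    ring
  · rw [hf, hv]
    ring
  · rw [hg, hv]
    ring

/-! ### the reduced ring -/

/-- the reduced index type -/
abbrev IhlIdx' (T G : Type*) := (T × Bool × Fin 3) ⊕ G

/-- the reduced ring `𝒪[[N_q, Φ₀_q, x_γ]]` -/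
abbrev IhlR' (𝒪 : Type*) [CommRing 𝒪] (T G : Type*) := MvPowerSeries (IhlIdx' T G) 𝒪

universe u

section

variable {𝒪 : Type u} [CommRing 𝒪] {T G : Type}

/-- the variables of the reduced ring -/
noncomputable abbrev ihlY (q : T) (b : Bool) (j : Fin 3) : IhlR' 𝒪 T G :=
  MvPowerSeries.X (Sum.inl (q, b, j))

/-- the values of `ρ` -/
noncomputable def ihlRhoVal (i2 : 𝒪) (τ : T → 𝒪) (ω : T → IhlR' 𝒪 T G) :
    IhlIdx T G → IhlR' 𝒪 T G
  | Sum.inl (q, false, i, j) =>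
      (!![MvPowerSeries.C i2 * (MvPowerSeries.C (τ q - 2) + ihlY q false 0), ihlY q false 1;
          ihlY q false 2, MvPowerSeries.C i2 * (MvPowerSeries.C (τ q - 2) - ihlY q false 0)] :
        Matrix (Fin 2) (Fin 2) (IhlR' 𝒪 T G)) i j
  | Sum.inl (q, true, i, j) =>
      (!![MvPowerSeries.C i2 * (ω q + ihlY q true 0), ihlY q true 1;
          ihlY q true 2, MvPowerSeries.C i2 * (ω q - ihlY q true 0)] :
        Matrix (Fin 2) (Fin 2) (IhlR' 𝒪 T G)) i j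
  | Sum.inr γ => MvPowerSeries.X (Sum.inr γ)

/-- the values of `σ` : the coordinates `N`, `Φ₀`, `x` of a point `φ` -/
noncomputable def ihlSigVal {A : Type*} [CommRing A] (φ : IhlR 𝒪 T G → A) : IhlIdx' T G → A
  | Sum.inl (q, b, j) =>
      ![φ (ihlX q b 0 0) - φ (ihlX q b 1 1), φ (ihlX q b 0 1), φ (ihlX q b 1 0)] j
  | Sum.inr γ => φ (MvPowerSeries.X (Sum.inr γ))

variable [IsLocalRing 𝒪]

theorem ihlRhoVal_mem (i2 : 𝒪) (τ : T → 𝒪) (hτ : ∀ q, τ q - 2 ∈ maximalIdeal 𝒪)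
    (ω : T → IhlR' 𝒪 T G) (hω : ∀ q, ω q ∈ maximalIdeal (IhlR' 𝒪 T G)) (x : IhlIdx T G) :
    ihlRhoVal i2 τ ω x ∈ maximalIdeal (IhlR' 𝒪 T G) := by
  have hX : ∀ y : IhlIdx' T G,
      (MvPowerSeries.X y : IhlR' 𝒪 T G) ∈ maximalIdeal (IhlR' 𝒪 T G) := by
    intro y
    rw [Fermat.Agent.S53Lib.maximalIdeal_eq_comap_constantCoeff, Ideal.mem_comap,
      MvPowerSeries.constantCoeff_X]
    exact Ideal.zero_mem _
  have hC : ∀ q, (MvPowerSeries.C (τ q - 2) : IhlR' 𝒪 T G) ∈ maximalIdeal (IhlR' 𝒪 T G) := by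
    intro q
    rw [Fermat.Agent.S53Lib.maximalIdeal_eq_comap_constantCoeff, Ideal.mem_comap,
      MvPowerSeries.constantCoeff_C]
    exact hτ q
  rcases x with ⟨q, b, i, j⟩ | γ
  · cases b <;> fin_cases i <;> fin_cases j
    · exact Ideal.mul_mem_left _ _ (Ideal.add_mem _ (hC q) (hX _))
    · exact hX _
    · exact hX _
    · exact Ideal.mul_mem_left _ _ (Ideal.sub_mem _ (hC q) (hX _))
    · exact Ideal.mul_mem_left _ _ (Ideal.add_mem _ (hω q) (hX _))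
    · exact hX _
    · exact hX _
    · exact Ideal.mul_mem_left _ _ (Ideal.sub_mem _ (hω q) (hX _))
  · exact hX _

end

section comp

variable {𝒪 : Type u} [CommRing 𝒪] {T G : Type} {A : Type*} [CommRing A] [Algebra 𝒪 A]
  (i2 : 𝒪) (τ : T → 𝒪) (ω : T → IhlR' 𝒪 T G)
  (ρ : IhlR 𝒪 T G →ₐ[𝒪] IhlR' 𝒪 T G) (hρ : ∀ x, ρ (MvPowerSeries.X x) = ihlRhoVal i2 τ ω x)
  (θ : IhlR' 𝒪 T G →ₐ[𝒪] A)

theorem ihl_map_C' (z : 𝒪) : θ (MvPowerSeries.C z) = algebraMap 𝒪 A z := by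
  have : (MvPowerSeries.C z : IhlR' 𝒪 T G) = algebraMap 𝒪 (IhlR' 𝒪 T G) z := by
    rw [MvPowerSeries.c_eq_algebraMap]
  rw [this, AlgHom.commutes]

include hρ in
/-- `θ ∘ ρ` on the variables -/
theorem ihl_theta_rho (q : T) :
    θ (ρ (ihlX q false 0 0)) =
      algebraMap 𝒪 A i2 * ((algebraMap 𝒪 A (τ q) - 2) + θ (ihlY q false 0)) ∧
    θ (ρ (ihlX q false 0 1)) = θ (ihlY q false 1) ∧
    θ (ρ (ihlX q false 1 0)) = θ (ihlY q false 2) ∧
    θ (ρ (ihlX q false 1 1)) =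
      algebraMap 𝒪 A i2 * ((algebraMap 𝒪 A (τ q) - 2) - θ (ihlY q false 0)) ∧
    θ (ρ (ihlX q true 0 0)) = algebraMap 𝒪 A i2 * (θ (ω q) + θ (ihlY q true 0)) ∧
    θ (ρ (ihlX q true 0 1)) = θ (ihlY q true 1) ∧
    θ (ρ (ihlX q true 1 0)) = θ (ihlY q true 2) ∧
    θ (ρ (ihlX q true 1 1)) = algebraMap 𝒪 A i2 * (θ (ω q) - θ (ihlY q true 0)) := by
  have hC2 : θ (MvPowerSeries.C (τ q - 2)) = algebraMap 𝒪 A (τ q) - 2 := by
    rw [ihl_map_C', map_sub, map_ofNat]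
  refine ⟨?_, ?_, ?_, ?_, ?_, ?_, ?_, ?_⟩
  · rw [ihlX, hρ]
    show θ (MvPowerSeries.C i2 * (MvPowerSeries.C (τ q - 2) + ihlY q false 0)) = _
    rw [map_mul, map_add, ihl_map_C', hC2]
  · rw [ihlX, hρ]
    rfl
  · rw [ihlX, hρ]
    rfl
  · rw [ihlX, hρ]
    show θ (MvPowerSeries.C i2 * (MvPowerSeries.C (τ q - 2) - ihlY q false 0)) = _
    rw [map_mul, map_sub, ihl_map_C', hC2]
  · rw [ihlX, hρ]
    show θ (MvPowerSeries.C i2 * (ω q + ihlY q true 0)) = _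
    rw [map_mul, map_add, ihl_map_C']
  · rw [ihlX, hρ]
    rfl
  · rw [ihlX, hρ]
    rfl
  · rw [ihlX, hρ]
    show θ (MvPowerSeries.C i2 * (ω q - ihlY q true 0)) = _
    rw [map_mul, map_sub, ihl_map_C']

end comp

section killJ

variable {𝒪 : Type u} [CommRing 𝒪] {T G : Type} {A : Type*} [CommRing A] [Algebra 𝒪 A]
  (i2 : 𝒪) (hi2 : 2 * i2 = 1) (τ nn : T → 𝒪) (ω : T → IhlR' 𝒪 T G)
  (hωr : ∀ q, ω q * ω q + 4 * ω q = 4 * MvPowerSeries.C (nn q - 1) +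
    (ihlY q true 0 * ihlY q true 0 + 4 * ihlY q true 1 * ihlY q true 2))
  (ρ : IhlR 𝒪 T G →ₐ[𝒪] IhlR' 𝒪 T G) (hρ : ∀ x, ρ (MvPowerSeries.X x) = ihlRhoVal i2 τ ω x)

include hi2 in
theorem ihl_two_mul_i2 : (2 : A) * algebraMap 𝒪 A i2 = 1 := by
  have := congrArg (algebraMap 𝒪 A) hi2
  rwa [map_mul, map_ofNat, map_one] at this

include hωr in
theorem ihl_theta_omega (θ : IhlR' 𝒪 T G →ₐ[𝒪] A) (q : T) :
    θ (ω q) * θ (ω q) + 4 * θ (ω q) = 4 * (algebraMap 𝒪 A (nn q) - 1) +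
      (θ (ihlY q true 0) * θ (ihlY q true 0) + 4 * θ (ihlY q true 1) * θ (ihlY q true 2)) := by
  have := congrArg θ (hωr q)
  rw [map_add, map_mul, map_mul, map_ofNat, map_add, map_mul, map_ofNat, ihl_map_C', map_add,
    map_mul, map_mul, map_mul, map_ofNat, map_sub, map_one] at this
  exact this

include hi2 hωr hρ in
/-- a parametrised point `N ↦ N`, `Φ₀ ↦ K • N` of the reduced ring gives a point of `ihlJ` -/
theorem ihl_J_le_ker_comp (θ : IhlR' 𝒪 T G →ₐ[𝒪] A) (K : T → A)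
    (hq : ∀ q, θ (ihlY q false 0) * θ (ihlY q false 0) +
      4 * θ (ihlY q false 1) * θ (ihlY q false 2) = algebraMap 𝒪 A (τ q ^ 2 - 4))
    (hK : ∀ q j, θ (ihlY q true j) = K q * θ (ihlY q false j)) :
    ihlJ τ nn ≤ RingHom.ker ((θ.comp ρ : IhlR 𝒪 T G →ₐ[𝒪] A) : IhlR 𝒪 T G →+* A) := by
  rw [ihl_J_le_ker_iff]
  intro q
  have h2i := ihl_two_mul_i2 (A := A) i2 hi2
  have h2 : IsUnit (2 : A) :=
    ⟨⟨2, algebraMap 𝒪 A i2, h2i, by rw [mul_comm]; exact h2i⟩, rfl⟩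
  obtain ⟨e1, e2, e3, e4, e5, e6, e7, e8⟩ := ihl_theta_rho i2 τ ω ρ hρ θ q
  have hC : ∀ z : 𝒪, ((θ.comp ρ : IhlR 𝒪 T G →ₐ[𝒪] A) : IhlR 𝒪 T G →+* A) (MvPowerSeries.C z) =
      algebraMap 𝒪 A z := by
    intro z
    have : (MvPowerSeries.C z : IhlR 𝒪 T G) = algebraMap 𝒪 (IhlR 𝒪 T G) z := by
      rw [MvPowerSeries.c_eq_algebraMap]
    rw [this]
    exact AlgHom.commutes (θ.comp ρ) z
  rw [hC, hC]
  show IhlRel _ _ (θ (ρ (ihlX q false 0 0))) (θ (ρ (ihlX q false 0 1)))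
    (θ (ρ (ihlX q false 1 0))) (θ (ρ (ihlX q false 1 1))) (θ (ρ (ihlX q true 0 0)))
    (θ (ρ (ihlX q true 0 1))) (θ (ρ (ihlX q true 1 0))) (θ (ρ (ihlX q true 1 1)))
  rw [e1, e2, e3, e4, e5, e6, e7, e8]
  have hw := ihl_theta_omega nn ω hωr θ q
  have hq' := hq q
  rw [map_sub, map_pow, map_ofNat] at hq'
  have had : algebraMap 𝒪 A i2 * ((algebraMap 𝒪 A (τ q) - 2) + θ (ihlY q false 0)) -
      algebraMap 𝒪 A i2 * ((algebraMap 𝒪 A (τ q) - 2) - θ (ihlY q false 0)) =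
      θ (ihlY q false 0) := by
    linear_combination θ (ihlY q false 0) * h2i
  have heh : algebraMap 𝒪 A i2 * (θ (ω q) + θ (ihlY q true 0)) -
      algebraMap 𝒪 A i2 * (θ (ω q) - θ (ihlY q true 0)) = θ (ihlY q true 0) := by
    linear_combination θ (ihlY q true 0) * h2i
  refine IhlRel.of_param (K := K q) (w := θ (ω q)) h2 ?_ ?_ ?_ ?_ (hK q 1) (hK q 2) ?_
  · linear_combination (algebraMap 𝒪 A (τ q) - 2) * h2i
  · rw [had]
    exact hq'
  · linear_combination θ (ω q) * h2i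
  · rw [had, heh]
    exact hK q 0
  · rw [heh]
    exact hw

end killJ

section factor

variable {𝒪 : Type u} [CommRing 𝒪] [IsLocalRing 𝒪] {T G : Type} [Finite T] [Finite G]
  {A : Type*} [CommRing A] [Algebra 𝒪 A] [IsLocalRing A] [IsLocalHom (algebraMap 𝒪 A)]
  [IsHausdorff (maximalIdeal A) A]
  (i2 : 𝒪) (hi2 : 2 * i2 = 1) (τ nn : T → 𝒪) (ω : T → IhlR' 𝒪 T G)
  (hωm : ∀ q, ω q ∈ maximalIdeal (IhlR' 𝒪 T G))
  (hωr : ∀ q, ω q * ω q + 4 * ω q = 4 * MvPowerSeries.C (nn q - 1) +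
    (ihlY q true 0 * ihlY q true 0 + 4 * ihlY q true 1 * ihlY q true 2))
  (ρ : IhlR 𝒪 T G →ₐ[𝒪] IhlR' 𝒪 T G) (hρ : ∀ x, ρ (MvPowerSeries.X x) = ihlRhoVal i2 τ ω x)

omit [IsLocalRing 𝒪] [Finite T] [Finite G] [IsLocalHom (algebraMap 𝒪 A)]
  [IsHausdorff (maximalIdeal A) A] in
theorem ihlSigVal_mem (φ : IhlR 𝒪 T G →ₐ[𝒪] A)
    (hφm : ∀ x, φ (MvPowerSeries.X x) ∈ maximalIdeal A) (x : IhlIdx' T G) :
    ihlSigVal φ x ∈ maximalIdeal A := by
  rcases x with ⟨q, b, j⟩ | γ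
  · fin_cases j
    · exact Ideal.sub_mem _ (hφm _) (hφm _)
    · exact hφm _
    · exact hφm _
  · exact hφm _

include hi2 hωm hωr hρ in
/-- **a point of `ihlJ` factors through `ρ`** -/
theorem ihl_sigma_rho (φ : IhlR 𝒪 T G →ₐ[𝒪] A)
    (hφm : ∀ x, φ (MvPowerSeries.X x) ∈ maximalIdeal A)
    (hJ : ihlJ τ nn ≤ RingHom.ker (φ : IhlR 𝒪 T G →+* A))
    (σ : IhlR' 𝒪 T G →ₐ[𝒪] A) (hσ : ∀ x, σ (MvPowerSeries.X x) = ihlSigVal φ x) :
    σ.comp ρ = φ := by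
  have h2i := ihl_two_mul_i2 (A := A) i2 hi2
  have h2 : IsUnit (2 : A) :=
    ⟨⟨2, algebraMap 𝒪 A i2, h2i, by rw [mul_comm]; exact h2i⟩, rfl⟩
  have hσm : ∀ x, σ (MvPowerSeries.X x) ∈ maximalIdeal A := fun x => by
    rw [hσ]
    exact ihlSigVal_mem φ hφm x
  refine (Fermat.Agent.S53Lib.algHom_ext_of_X (maximalIdeal A) hφm (fun x => ?_)).symm
  show φ (MvPowerSeries.X x) = σ (ρ (MvPowerSeries.X x))
  rcases x with ⟨q, b, i, j⟩ | γ
  · have H := (ihl_J_le_ker_iff (φ : IhlR 𝒪 T G →+* A) τ nn).mp hJ q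
    have hC : ∀ z : 𝒪, (φ : IhlR 𝒪 T G →+* A) (MvPowerSeries.C z) = algebraMap 𝒪 A z := by
      intro z
      have : (MvPowerSeries.C z : IhlR 𝒪 T G) = algebraMap 𝒪 (IhlR 𝒪 T G) z := by
        rw [MvPowerSeries.c_eq_algebraMap]
      rw [this]
      exact AlgHom.commutes φ z
    rw [hC, hC] at H
    replace H : IhlRel (algebraMap 𝒪 A (τ q)) (algebraMap 𝒪 A (nn q))
        (φ (ihlX q false 0 0)) (φ (ihlX q false 0 1)) (φ (ihlX q false 1 0))
        (φ (ihlX q false 1 1)) (φ (ihlX q true 0 0)) (φ (ihlX q true 0 1))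
        (φ (ihlX q true 1 0)) (φ (ihlX q true 1 1)) := H
    obtain ⟨e1, e2, e3, e4, e5, e6, e7, e8⟩ := ihl_theta_rho i2 τ ω ρ hρ σ q
    have s0 : ∀ b, σ (ihlY q b 0) = φ (ihlX q b 0 0) - φ (ihlX q b 1 1) := fun b => hσ _
    have s1 : ∀ b, σ (ihlY q b 1) = φ (ihlX q b 0 1) := fun b => hσ _
    have s2 : ∀ b, σ (ihlY q b 2) = φ (ihlX q b 1 0) := fun b => hσ _
    -- the Hensel root
    have hroot : σ (ω q) = φ (ihlX q true 0 0) + φ (ihlX q true 1 1) := by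
      refine ihl_root_unique h2 ?_ (Ideal.add_mem _ (hφm _) (hφm _)) ?_
      · have h5 := Fermat.Agent.S53Lib.algHom_sub_algebraMap_constantCoeff_mem σ hσm (ω q)
        have h6 : MvPowerSeries.constantCoeff (ω q) ∈ maximalIdeal 𝒪 := by
          have := hωm q
          rwa [Fermat.Agent.S53Lib.maximalIdeal_eq_comap_constantCoeff, Ideal.mem_comap] at this
        have h7 : algebraMap 𝒪 A (MvPowerSeries.constantCoeff (ω q)) ∈ maximalIdeal A :=
          map_nonunit (algebraMap 𝒪 A) _ h6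
        have := Ideal.add_mem _ h5 h7
        rwa [sub_add_cancel] at this
      · have hw := ihl_theta_omega nn ω hωr σ q
        rw [s0, s1, s2] at hw
        have := H.quadPhi
        exact hw.trans this.symm
    cases b <;> fin_cases i <;> fin_cases j
    · show φ (ihlX q false 0 0) = σ (ρ (ihlX q false 0 0))
      rw [e1, s0]
      linear_combination (-φ (ihlX q false 0 0)) * h2i + algebraMap 𝒪 A i2 * H.tr
    · show φ (ihlX q false 0 1) = σ (ρ (ihlX q false 0 1))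
      rw [e2, s1]
    · show φ (ihlX q false 1 0) = σ (ρ (ihlX q false 1 0))
      rw [e3, s2]
    · show φ (ihlX q false 1 1) = σ (ρ (ihlX q false 1 1))
      rw [e4, s0]
      linear_combination (-φ (ihlX q false 1 1)) * h2i + algebraMap 𝒪 A i2 * H.tr
    · show φ (ihlX q true 0 0) = σ (ρ (ihlX q true 0 0))
      rw [e5, s0, hroot]
      linear_combination (-φ (ihlX q true 0 0)) * h2i
    · show φ (ihlX q true 0 1) = σ (ρ (ihlX q true 0 1))
      rw [e6, s1]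
    · show φ (ihlX q true 1 0) = σ (ρ (ihlX q true 1 0))
      rw [e7, s2]
    · show φ (ihlX q true 1 1) = σ (ρ (ihlX q true 1 1))
      rw [e8, s0, hroot]
      linear_combination (-φ (ihlX q true 1 1)) * h2i
  · rw [hρ]
    show φ (MvPowerSeries.X (Sum.inr γ)) = σ (MvPowerSeries.X (Sum.inr γ))
    rw [hσ]
    rfl

end factor

end Fermat.Agent.Ihara
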