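import Fermat.Agent.Lib.Ihara.L.Defs

/-!
# IHARA / L, part 4: the relations of the type-`χ` ideal in coordinates

A ring homomorphism `φ` out of `IhlR 𝒪 T G` kills `ihlJ τ nn` iff for every `q` the images
`a, b, c, d` of the entries of `Σ_q - 1` and `e, f, g, h` of the entries of `Φ_q - 1` satisfy
`IhlRel`.
-/

set_option autoImplicit false

open MvPowerSeries

namespace Fermat.Agent.Ihara

/-- the relations, in coordinates: `Σ - 1 = [[a,b],[c,d]]`, `Φ - 1 = [[e,f],[g,h]]` -/
structure IhlRel {A : Type*} [CommRing A] (τ nn a b c d e f g h : A) : Prop where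
  tr : a + d = τ - 2
  det : (1 + a) * (1 + d) - b * c = 1
  detPhi : (1 + e) * (1 + h) - f * g = nn
  c00 : f * c = b * g
  c01 : b * (e - h) = f * (a - d)
  c10 : g * (a - d) = c * (e - h)

section

variable {𝒪 : Type*} [CommRing 𝒪] {T G : Type*}

/-- the variable `X_{q,b,i,j}` -/
noncomputable abbrev ihlX (q : T) (b : Bool) (i j : Fin 2) : IhlR 𝒪 T G :=
  X (Sum.inl (q, b, i, j))

theorem ihlMat_apply (q : T) (b : Bool) (i j : Fin 2) :
    (ihlMat q b : Matrix (Fin 2) (Fin 2) (IhlR 𝒪 T G)) i j =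
      (if i = j then 1 else 0) + ihlX q b i j := by
  simp [ihlMat, Matrix.one_apply]

variable {A : Type*} [CommRing A]

theorem ihl_map_trace (φ : IhlR 𝒪 T G →+* A) (q : T) (b : Bool) :
    φ ((ihlMat q b : Matrix (Fin 2) (Fin 2) (IhlR 𝒪 T G)).trace) =
      (1 + φ (ihlX q b 0 0)) + (1 + φ (ihlX q b 1 1)) := by
  rw [Matrix.trace_fin_two, ihlMat_apply, ihlMat_apply]
  simp

theorem ihl_map_det (φ : IhlR 𝒪 T G →+* A) (q : T) (b : Bool) :
    φ ((ihlMat q b : Matrix (Fin 2) (Fin 2) (IhlR 𝒪 T G)).det) =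
      (1 + φ (ihlX q b 0 0)) * (1 + φ (ihlX q b 1 1)) - φ (ihlX q b 0 1) * φ (ihlX q b 1 0) := by
  rw [Matrix.det_fin_two, ihlMat_apply, ihlMat_apply, ihlMat_apply, ihlMat_apply]
  simp

theorem ihl_map_comm (φ : IhlR 𝒪 T G →+* A) (q : T) (i j : Fin 2) :
    φ ((ihlPhi q * ihlSigma q - ihlSigma q * ihlPhi q :
      Matrix (Fin 2) (Fin 2) (IhlR 𝒪 T G)) i j) =
    (φ (ihlX q true i 0) * φ (ihlX q false 0 j) + φ (ihlX q true i 1) * φ (ihlX q false 1 j)) -
    (φ (ihlX q false i 0) * φ (ihlX q true 0 j) + φ (ihlX q false i 1) * φ (ihlX q true 1 j)) := by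
  rw [Matrix.sub_apply, Matrix.mul_apply, Matrix.mul_apply, Fin.sum_univ_two, Fin.sum_univ_two]
  simp only [ihlPhi, ihlSigma, ihlMat_apply, map_sub, map_add, map_mul]
  fin_cases i <;> fin_cases j <;> simp <;> ring

/-- `φ` kills the generators of `ihlJ τ nn` iff the coordinates satisfy the relations -/
theorem ihl_kills_iff (φ : IhlR 𝒪 T G →+* A) (τ nn : T → 𝒪) :
    (∀ x ∈ ihlJGen (G := G) τ nn, φ x = 0) ↔
      ∀ q, IhlRel (φ (C (τ q))) (φ (C (nn q)))
        (φ (ihlX q false 0 0)) (φ (ihlX q false 0 1)) (φ (ihlX q false 1 0))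
        (φ (ihlX q false 1 1)) (φ (ihlX q true 0 0)) (φ (ihlX q true 0 1))
        (φ (ihlX q true 1 0)) (φ (ihlX q true 1 1)) := by
  constructor
  · intro h q
    have h1 := h _ (Or.inl (Or.inl (Or.inl ⟨q, rfl⟩)))
    have h2 := h _ (Or.inl (Or.inl (Or.inr ⟨q, rfl⟩)))
    have h3 := h _ (Or.inl (Or.inr ⟨q, rfl⟩))
    have h4 := fun i j => h _ (Or.inr ⟨(q, i, j), rfl⟩)
    simp only [ihlSigma, ihlPhi, map_sub, ihl_map_trace, ihl_map_det, map_one] at h1 h2 h3
    have h00 := h4 0 0
    have h01 := h4 0 1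
    have h10 := h4 1 0
    rw [ihl_map_comm] at h00 h01 h10
    refine ⟨?_, ?_, ?_, ?_, ?_, ?_⟩
    · linear_combination h1
    · linear_combination h2
    · linear_combination h3
    · linear_combination h00
    · linear_combination h01
    · linear_combination h10
  · intro h x hx
    rcases hx with ((⟨q, rfl⟩ | ⟨q, rfl⟩) | ⟨q, rfl⟩) | ⟨⟨q, i, j⟩, rfl⟩
    · have := (h q).tr
      simp only [ihlSigma, map_sub, ihl_map_trace]
      linear_combination this
    · have := (h q).det
      simp only [ihlSigma, map_sub, ihl_map_det, map_one]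
      linear_combination this
    · have := (h q).detPhi
      simp only [ihlPhi, map_sub, ihl_map_det]
      linear_combination this
    · have h00 := (h q).c00
      have h01 := (h q).c01
      have h10 := (h q).c10
      show φ ((ihlPhi q * ihlSigma q - ihlSigma q * ihlPhi q :
        Matrix (Fin 2) (Fin 2) (IhlR 𝒪 T G)) i j) = 0
      rw [ihl_map_comm]
      fin_cases i <;> fin_cases j
      · show φ (ihlX q true 0 0) * φ (ihlX q false 0 0) + φ (ihlX q true 0 1) * φ (ihlX q false 1 0) -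
          (φ (ihlX q false 0 0) * φ (ihlX q true 0 0) + φ (ihlX q false 0 1) * φ (ihlX q true 1 0)) = 0
        linear_combination h00
      · show φ (ihlX q true 0 0) * φ (ihlX q false 0 1) + φ (ihlX q true 0 1) * φ (ihlX q false 1 1) -
          (φ (ihlX q false 0 0) * φ (ihlX q true 0 1) + φ (ihlX q false 0 1) * φ (ihlX q true 1 1)) = 0
        linear_combination h01
      · show φ (ihlX q true 1 0) * φ (ihlX q false 0 0) + φ (ihlX q true 1 1) * φ (ihlX q false 1 0) -
          (φ (ihlX q false 1 0) * φ (ihlX q true 0 0) + φ (ihlX q false 1 1) * φ (ihlX q true 1 0)) = 0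
        linear_combination h10
      · show φ (ihlX q true 1 0) * φ (ihlX q false 0 1) + φ (ihlX q true 1 1) * φ (ihlX q false 1 1) -
          (φ (ihlX q false 1 0) * φ (ihlX q true 0 1) + φ (ihlX q false 1 1) * φ (ihlX q true 1 1)) = 0
        linear_combination (-1 : A) * h00

/-- `ihlJ τ nn ≤ ker φ` iff the coordinates satisfy the relations -/
theorem ihl_J_le_ker_iff (φ : IhlR 𝒪 T G →+* A) (τ nn : T → 𝒪) :
    ihlJ (G := G) τ nn ≤ RingHom.ker φ ↔
      ∀ q, IhlRel (φ (C (τ q))) (φ (C (nn q)))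
        (φ (ihlX q false 0 0)) (φ (ihlX q false 0 1)) (φ (ihlX q false 1 0))
        (φ (ihlX q false 1 1)) (φ (ihlX q true 0 0)) (φ (ihlX q true 0 1))
        (φ (ihlX q true 1 0)) (φ (ihlX q true 1 1)) := by
  rw [← ihl_kills_iff, ihlJ, Ideal.span_le]
  rfl

end

/-! ### consequences of the relations -/

section

variable {A : Type*} [CommRing A] {τ nn a b c d e f g h : A}

theorem IhlRel.quad (H : IhlRel τ nn a b c d e f g h) :
    (a - d) * (a - d) + 4 * b * c = τ ^ 2 - 4 := by
  linear_combination (a + d + τ + 2) * H.tr - 4 * H.det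

theorem IhlRel.quadPhi (H : IhlRel τ nn a b c d e f g h) :
    (e + h) * (e + h) + 4 * (e + h) = 4 * (nn - 1) + ((e - h) * (e - h) + 4 * f * g) := by
  linear_combination 4 * H.detPhi

/-- `D · Φ₀ = m · N` -/
theorem IhlRel.prop_u (H : IhlRel τ nn a b c d e f g h) :
    ((a - d) * (e - h) + 2 * b * g + 2 * c * f) * (a - d) = (τ ^ 2 - 4) * (e - h) := by
  linear_combination (e - h) * H.quad + 2 * b * H.c10 - 2 * c * H.c01

theorem IhlRel.prop_b (H : IhlRel τ nn a b c d e f g h) :
    ((a - d) * (e - h) + 2 * b * g + 2 * c * f) * b = (τ ^ 2 - 4) * f := by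
  linear_combination f * H.quad + (a - d) * H.c01 - 2 * b * H.c00

theorem IhlRel.prop_c (H : IhlRel τ nn a b c d e f g h) :
    ((a - d) * (e - h) + 2 * b * g + 2 * c * f) * c = (τ ^ 2 - 4) * g := by
  linear_combination g * H.quad - (a - d) * H.c10 + 2 * c * H.c00

end

end Fermat.Agent.Ihara
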